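import Fermat.Agent.EC.Eleven.Inertia
import Fermat.Agent.Gal.Unramified

/-!
Twisted points modulo rational points form a group of order at most five: the only ramification
is at `11`, where it is governed by the action on `11^(1/5)`.
-/

set_option autoImplicit false

open scoped Pointwise WeierstrassCurve.Affine

namespace Fermat.Agent.Eleven

local notation "Qbar" => AlgebraicClosure ℚ
local notation "AbsGal" => AlgebraicClosure ℚ ≃ₐ[ℚ] AlgebraicClosure ℚ

lemma gal_smul_add (σ : AbsGal) (P Q : (E11⁄Qbar).Point) : σ • (P + Q) = σ • P + σ • Q :=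
  smul_add σ P Q

lemma gal_smul_nsmul (σ : AbsGal) (n : ℕ) (P : (E11⁄Qbar).Point) : σ • (n • P) = n • (σ • P) :=
  map_nsmul (DistribSMul.toAddMonoidHom (E11⁄Qbar).Point σ) n P

lemma isTwisted_add_nsmul {R R₀ : (E11⁄Qbar).Point} (hR : IsTwisted R) (hR₀ : IsTwisted R₀)
    (n : ℕ) : IsTwisted (R + n • R₀) := by
  intro σ
  obtain ⟨m, hm⟩ := hR σ
  obtain ⟨m₀, hm₀⟩ := hR₀ σ
  refine ⟨m + n * m₀, ?_⟩
  rw [gal_smul_add, gal_smul_nsmul, hm, hm₀, nsmul_add, add_nsmul, mul_comm, mul_nsmul]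
  abel

/-- A point fixed by inertia at one place over `11`, moved only by translations by `⟨T⟩`, is
rational. -/
lemma fixed_of_inertia_eleven {A₀ : ValuationSubring Qbar} (hA₀ : A₀.LiesOverPrime 11)
    {R : (E11⁄Qbar).Point} (hR : IsTwisted R)
    (h : ∀ σ ∈ A₀.inertiaSubgroupIn ℚ, σ • R = R) (σ : AbsGal) : σ • R = R := by
  have hall : ∀ q : ℕ, q.Prime → ∀ A : ValuationSubring Qbar, A.LiesOverPrime q →
      ∀ σ ∈ A.inertiaSubgroupIn ℚ, σ • R = R := by
    intro q hq A hA σ hσ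
    by_cases hq11 : q = 11
    · subst hq11
      obtain ⟨ρ, hρ⟩ := Gal.exists_smul_eq_of_liesOverPrime hq hA₀ hA
      have hmem := Gal.conj_mem_inertia hσ ρ⁻¹
      rw [inv_inv, ← hρ, inv_smul_smul] at hmem
      have h1 := h _ hmem
      rw [mul_smul, mul_smul, inv_smul_eq_iff] at h1
      obtain ⟨a, ha⟩ := hR ρ
      rw [ha, gal_smul_add, smul_nsmul_T, add_left_inj] at h1
      exact h1
    · exact inertia_fix_of_ne_eleven hq hA hq11 hσ hR
  rcases eq_or_ne R 0 with rfl | hR0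
  · exact smul_zero (A := (E11⁄Qbar).Point) σ
  obtain ⟨x, y, hxy, rfl⟩ := exists_pt hR0
  have hx : x ∈ Set.range (algebraMap ℚ Qbar) := Gal.mem_range_of_inertia_fixed
    fun q hq A hA τ hτ => by
      have := hall q hq A hA τ hτ
      rw [smul_pt, pt_inj] at this
      exact this.1
  have hy : y ∈ Set.range (algebraMap ℚ Qbar) := Gal.mem_range_of_inertia_fixed
    fun q hq A hA τ hτ => by
      have := hall q hq A hA τ hτ
      rw [smul_pt, pt_inj] at this
      exact this.2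
  obtain ⟨x', rfl⟩ := hx
  obtain ⟨y', rfl⟩ := hy
  rw [smul_pt, pt_inj]
  exact ⟨σ.commutes x', σ.commutes y'⟩

/-- Every twisted point is a rational point up to a multiple of a given irrational one. -/
theorem exists_rational_combination {R₀ : (E11⁄Qbar).Point} (hR₀ : IsTwisted R₀)
    (hne : ∃ σ : AbsGal, σ • R₀ ≠ R₀) {R : (E11⁄Qbar).Point} (hR : IsTwisted R) :
    ∃ n : ℕ, ∀ σ : AbsGal, σ • (R + n • R₀) = R + n • R₀ := by
  obtain ⟨A, hA⟩ := Gal.exists_liesOverPrime (L := Qbar) (show Nat.Prime 11 by norm_num)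
  obtain ⟨z, hz⟩ := IsAlgClosed.exists_pow_nat_eq (11 : Qbar) (show 0 < 5 by norm_num)
  have hz0 : z ≠ 0 := fun h0 => by simp [h0] at hz
  obtain ⟨τ, hτ, hτR₀⟩ : ∃ τ ∈ A.inertiaSubgroupIn ℚ, τ • R₀ ≠ R₀ := by
    by_contra hc
    push Not at hc
    obtain ⟨σ, hσ⟩ := hne
    exact hσ (fixed_of_inertia_eleven hA hR₀ hc σ)
  obtain ⟨m₀, hm₀⟩ := hR₀ τ
  obtain ⟨m, hm⟩ := hR τ
  have : Fact (Nat.Prime 5) := ⟨by norm_num⟩
  have hm₀0 : (m₀ : ZMod 5) ≠ 0 := by
    intro h0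
    apply hτR₀
    rw [hm₀, nsmul_T_eq_of_mod (b := 0) ?_, zero_nsmul, add_zero]
    have := congrArg ZMod.val h0
    rwa [ZMod.val_natCast, ZMod.val_zero] at this
  obtain ⟨n, hn⟩ : ∃ n : ℕ, ((m + n * m₀ : ℕ) : ZMod 5) = 0 :=
    ⟨(-(m : ZMod 5) / (m₀ : ZMod 5)).val, by
      push_cast
      simp only [ZMod.natCast_rightInverse _]
      rw [div_mul_cancel₀ _ hm₀0, add_neg_cancel]⟩
  refine ⟨n, fixed_of_inertia_eleven hA (isTwisted_add_nsmul hR hR₀ n) ?_⟩
  have hτfix : τ • (R + n • R₀) = R + n • R₀ := by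
    rw [gal_smul_add, gal_smul_nsmul, hm, hm₀, nsmul_add, ← mul_nsmul, add_add_add_comm,
      ← add_nsmul, nsmul_T_eq_of_mod (b := 0) ?_, zero_nsmul, add_zero]
    have := congrArg ZMod.val hn
    rw [ZMod.val_natCast, ZMod.val_zero] at this
    rw [mul_comm m₀ n]
    exact this
  intro σ hσ
  -- write `σ = τ^i h` with `h` fixing `z`
  set ζ₀ := τ z / z with hζ₀
  have h5 : ∀ ρ : AbsGal, (ρ z / z) ^ 5 = 1 := fun ρ => by
    rw [div_pow, ← map_pow, hz, map_ofNat, div_self]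
    norm_num
  have hζ₀1 : ζ₀ ≠ 1 := by
    intro h1
    apply hτR₀
    rw [hζ₀, div_eq_one_iff_eq hz0] at h1
    exact inertia_fix_eleven hA hτ hz h1 hR₀
  have hprim : IsPrimitiveRoot ζ₀ 5 := by
    rw [IsPrimitiveRoot.iff_orderOf]
    exact orderOf_eq_prime (h5 τ) hζ₀1
  obtain ⟨i, -, hi⟩ := hprim.eq_pow_of_pow_eq_one (h5 σ)
  have hval5 : A.valuation (5 : Qbar) = 1 := by
    simpa using val_intCast_eq (A := A) (L := Qbar) (show Nat.Prime 11 by norm_num) hA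
      (n := 5) (by norm_num)
  have hval : A.valuation ζ₀ = 1 := val_eq_one_of_pow (show 5 ≠ 0 by norm_num)
    (by rw [← map_pow, h5, map_one])
  have hτζ : τ ζ₀ = ζ₀ := by
    have hζne : ζ₀ ≠ 0 := hprim.ne_zero (by norm_num)
    have h1 : (τ ζ₀ / ζ₀) ^ 5 = 1 := by
      rw [div_pow, ← map_pow, h5, map_one, div_one]
    have h2 : A.valuation (τ ζ₀ / ζ₀ - 1) < 1 := by
      rw [div_sub_one hζne, map_div₀, hval, div_one]
      exact val_apply_sub_lt hτ hval.le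
    exact (div_eq_one_iff_eq hζne).mp (eq_one_of_pow_five hval5 h1 h2)
  have hpow : ∀ i : ℕ, (τ ^ i) z = ζ₀ ^ i * z ∧ (τ ^ i) • (R + n • R₀) = R + n • R₀ := by
    intro i
    induction i with
    | zero => exact ⟨by simp, one_smul _ _⟩
    | succ i ih =>
      refine ⟨?_, by rw [pow_succ', mul_smul, ih.2, hτfix]⟩
      rw [pow_succ', AlgEquiv.mul_apply, ih.1, map_mul, map_pow, hτζ, pow_succ, hζ₀,
        mul_assoc, div_mul_cancel₀ _ hz0]
  have hσz : ((τ ^ i)⁻¹ * σ) z = z := by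
    rw [AlgEquiv.mul_apply, AlgEquiv.aut_inv, AlgEquiv.symm_apply_eq, (hpow i).1, hi,
      div_mul_cancel₀ _ hz0]
  have hfix := inertia_fix_eleven hA
    ((A.inertiaSubgroupIn ℚ).mul_mem
      ((A.inertiaSubgroupIn ℚ).inv_mem ((A.inertiaSubgroupIn ℚ).pow_mem hτ i)) hσ)
    hz hσz (isTwisted_add_nsmul hR hR₀ n)
  rw [mul_smul, inv_smul_eq_iff, (hpow i).2] at hfix
  exact hfix

end Fermat.Agent.Eleven
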