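import Mathlib
import Fermat.Prelude.Def_FLTPrelim_GaloisRep

/-!
# The curve `y² - y = x³ - x²` (11a3, a model of `X₁(11)`) and its five rational points
-/

set_option autoImplicit false

open WeierstrassCurve
open scoped WeierstrassCurve.Affine

namespace Fermat.Agent.Eleven

/-- The integral model `y² - y = x³ - x²`. -/
abbrev W11 : WeierstrassCurve ℤ := ⟨0, -1, -1, 0, 0⟩

/-- The same curve over `ℚ`. -/
abbrev E11 : WeierstrassCurve ℚ := W11.map (Int.castRingHom ℚ)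

variable {K : Type*} [Field K] [Algebra ℚ K]

@[simp] lemma a₁_eq : (E11⁄K).a₁ = 0 := by simp [WeierstrassCurve.baseChange]
@[simp] lemma a₂_eq : (E11⁄K).a₂ = -1 := by simp [WeierstrassCurve.baseChange]
@[simp] lemma a₃_eq : (E11⁄K).a₃ = -1 := by simp [WeierstrassCurve.baseChange]
@[simp] lemma a₄_eq : (E11⁄K).a₄ = 0 := by simp [WeierstrassCurve.baseChange]
@[simp] lemma a₆_eq : (E11⁄K).a₆ = 0 := by simp [WeierstrassCurve.baseChange]

/-- The affine equation. -/
def OnE (x y : K) : Prop := y ^ 2 - y = x ^ 3 - x ^ 2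

lemma onE_iff {x y : K} : (E11⁄K).Equation x y ↔ OnE x y := by
  rw [Affine.equation_iff, OnE]
  simp only [a₁_eq, a₂_eq, a₃_eq, a₄_eq, a₆_eq]
  constructor <;> intro h <;> linear_combination h

lemma Δ_eq : (E11⁄K).Δ = -11 := by
  simp only [WeierstrassCurve.Δ, WeierstrassCurve.b₂, WeierstrassCurve.b₄, WeierstrassCurve.b₆,
    WeierstrassCurve.b₈, a₁_eq, a₂_eq, a₃_eq, a₄_eq, a₆_eq]
  ring

lemma eleven_ne_zero : (11 : K) ≠ 0 := by
  have := (algebraMap ℚ K).injective.ne (show (11 : ℚ) ≠ 0 by norm_num)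
  simpa using this

lemma nonsingular_of_onE {x y : K} (h : OnE x y) : (E11⁄K).Nonsingular x y :=
  (Affine.equation_iff_nonsingular_of_Δ_ne_zero
    (by rw [Δ_eq]; exact neg_ne_zero.mpr eleven_ne_zero)).mp (onE_iff.mpr h)

lemma onE_of_nonsingular {x y : K} (h : (E11⁄K).Nonsingular x y) : OnE x y := onE_iff.mp h.1

/-- The point with coordinates `x, y`. -/
def pt (x y : K) (h : OnE x y) : (E11⁄K).Point := .some x y (nonsingular_of_onE h)

lemma pt_ne_zero {x y : K} (h : OnE x y) : pt x y h ≠ 0 := Affine.Point.some_ne_zero _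

lemma pt_inj {x y x' y' : K} {h : OnE x y} {h' : OnE x' y'} :
    pt x y h = pt x' y' h' ↔ x = x' ∧ y = y' := by
  simp [pt]

lemma exists_pt {P : (E11⁄K).Point} (hP : P ≠ 0) : ∃ x y h, P = pt x y h := by
  rcases P with _ | ⟨x, y, h⟩
  · exact absurd rfl hP
  · exact ⟨x, y, onE_of_nonsingular h, rfl⟩

omit [Algebra ℚ K] in
lemma onE_neg {x y : K} (h : OnE x y) : OnE x (1 - y) := by
  unfold OnE at *
  linear_combination h

lemma neg_pt {x y : K} (h : OnE x y) : -pt x y h = pt x (1 - y) (onE_neg h) := by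
  simp only [pt, Affine.Point.neg_some, Affine.Point.some.injEq, Affine.negY, a₁_eq, a₃_eq,
    true_and]
  ring

omit [Algebra ℚ K] in
lemma onE_zero_zero : OnE (0 : K) 0 := by simp [OnE]
omit [Algebra ℚ K] in
lemma onE_zero_one : OnE (0 : K) 1 := by simp [OnE]
omit [Algebra ℚ K] in
lemma onE_one_zero : OnE (1 : K) 0 := by simp [OnE]
omit [Algebra ℚ K] in
lemma onE_one_one : OnE (1 : K) 1 := by simp [OnE]

variable [DecidableEq K]

/-- Addition of points with different abscissae. -/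
lemma pt_add_pt {x₁ y₁ x₂ y₂ x₃ y₃ : K} (h₁ : OnE x₁ y₁) (h₂ : OnE x₂ y₂) (h₃ : OnE x₃ y₃)
    (hx : x₁ ≠ x₂) (l : K) (hl : l * (x₁ - x₂) = y₁ - y₂) (hx₃ : x₃ = l ^ 2 + 1 - x₁ - x₂)
    (hy₃ : y₃ = -(l * (x₃ - x₁) + y₁) + 1) : pt x₁ y₁ h₁ + pt x₂ y₂ h₂ = pt x₃ y₃ h₃ := by
  have hs : (E11⁄K).slope x₁ x₂ y₁ y₂ = l := by
    rw [Affine.slope_of_X_ne hx, ← hl, mul_div_cancel_right₀ _ (sub_ne_zero.mpr hx)]
  subst hy₃ hx₃
  simp only [pt, Affine.Point.add_of_X_ne hx, Affine.Point.some.injEq, hs, Affine.addX,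
    Affine.addY, Affine.negAddY, Affine.negY, a₁_eq, a₂_eq, a₃_eq]
  constructor <;> ring

/-- Duplication. -/
lemma pt_add_self {x y x₃ y₃ : K} (h : OnE x y) (h₃ : OnE x₃ y₃) (hy : 2 * y - 1 ≠ 0) (l : K)
    (hl : l * (2 * y - 1) = 3 * x ^ 2 - 2 * x) (hx₃ : x₃ = l ^ 2 + 1 - x - x)
    (hy₃ : y₃ = -(l * (x₃ - x) + y) + 1) : pt x y h + pt x y h = pt x₃ y₃ h₃ := by
  have hy' : y ≠ (E11⁄K).negY x y := by
    simp only [Affine.negY, a₁_eq, a₃_eq]
    intro h'
    exact hy (by linear_combination h')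
  have hs : (E11⁄K).slope x x y y = l := by
    rw [Affine.slope_of_Y_ne rfl hy',
      div_eq_iff (sub_ne_zero.mpr hy')]
    simp only [Affine.negY, a₁_eq, a₂_eq, a₃_eq, a₄_eq]
    linear_combination -hl
  subst hy₃ hx₃
  simp only [pt, Affine.Point.add_self_of_Y_ne hy', Affine.Point.some.injEq, hs, Affine.addX,
    Affine.addY, Affine.negAddY, Affine.negY, a₁_eq, a₂_eq, a₃_eq]
  constructor <;> ring

variable (K) in
/-- The rational point `(0, 0)` of order five. -/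
def T : (E11⁄K).Point := pt 0 0 onE_zero_zero

lemma two_T : (2 : ℕ) • T K = pt (1 : K) 1 onE_one_one := by
  rw [two_nsmul, T]
  exact pt_add_self _ _ (by simp) 0 (by ring) (by ring) (by ring)

lemma three_T : (3 : ℕ) • T K = pt (1 : K) 0 onE_one_zero := by
  rw [succ_nsmul, two_T, T]
  exact pt_add_pt _ _ _ one_ne_zero 1 (by ring) (by ring) (by ring)

lemma four_T : (4 : ℕ) • T K = pt (0 : K) 1 onE_zero_one := by
  rw [succ_nsmul, three_T, T]
  exact pt_add_pt _ _ _ one_ne_zero 0 (by ring) (by ring) (by ring)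

lemma five_T : (5 : ℕ) • T K = 0 := by
  rw [succ_nsmul, four_T, T]
  have : pt (0 : K) 1 onE_zero_one = -pt (0 : K) 0 onE_zero_zero := by
    rw [neg_pt, pt_inj]; simp
  rw [this, neg_add_cancel]

omit [DecidableEq K] in
lemma T_ne_zero : T K ≠ 0 := pt_ne_zero _

/-- The five rational points `i • T`. -/
lemma nsmul_T_cases (i : ℕ) : i • T K = 0 ∨ i • T K = pt (0 : K) 0 onE_zero_zero ∨
    i • T K = pt (1 : K) 1 onE_one_one ∨ i • T K = pt (1 : K) 0 onE_one_zero ∨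
    i • T K = pt (0 : K) 1 onE_zero_one := by
  have h : i • T K = (i % 5) • T K := by
    conv_lhs => rw [← Nat.mod_add_div i 5, add_nsmul, mul_nsmul, five_T, nsmul_zero, add_zero]
  rw [h]
  have : i % 5 < 5 := Nat.mod_lt _ (by norm_num)
  interval_cases i % 5
  · exact Or.inl (zero_nsmul _)
  · exact Or.inr (Or.inl (one_nsmul _))
  · exact Or.inr (Or.inr (Or.inl two_T))
  · exact Or.inr (Or.inr (Or.inr (Or.inl three_T)))
  · exact Or.inr (Or.inr (Or.inr (Or.inr four_T)))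

/-- Being a multiple of `T`. -/
def IsTMul (P : (E11⁄K).Point) : Prop := ∃ i : ℕ, i • T K = P

lemma isTMul_iff_x {x y : K} (h : OnE x y) : IsTMul (pt x y h) ↔ x = 0 ∨ x = 1 := by
  constructor
  · rintro ⟨i, hi⟩
    rcases nsmul_T_cases (K := K) i with h' | h' | h' | h' | h' <;> rw [h'] at hi
    · exact absurd hi.symm (pt_ne_zero h)
    all_goals rw [pt_inj] at hi
    · exact Or.inl hi.1.symm
    · exact Or.inr hi.1.symm
    · exact Or.inr hi.1.symm
    · exact Or.inl hi.1.symm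
  · intro hx
    have hy : y * (y - 1) = 0 := by
      unfold OnE at h
      rcases hx with rfl | rfl <;> linear_combination h
    rcases hx with rfl | rfl <;> rcases mul_eq_zero.mp hy with hy | hy
    · exact ⟨1, by rw [one_nsmul, T, pt_inj]; exact ⟨rfl, hy.symm⟩⟩
    · exact ⟨4, by rw [four_T, pt_inj]; exact ⟨rfl, (sub_eq_zero.mp hy).symm⟩⟩
    · exact ⟨3, by rw [three_T, pt_inj]; exact ⟨rfl, hy.symm⟩⟩
    · exact ⟨2, by rw [two_T, pt_inj]; exact ⟨rfl, (sub_eq_zero.mp hy).symm⟩⟩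

/-- Translation by `T`. -/
lemma pt_add_T {x y : K} (h : OnE x y) (hx : x ≠ 0) (h' : OnE (y / x ^ 2) (1 - y ^ 2 / x ^ 3)) :
    pt x y h + T K = pt (y / x ^ 2) (1 - y ^ 2 / x ^ 3) h' := by
  refine pt_add_pt _ _ _ hx (y / x) (by field_simp; ring) ?_ ?_
  · unfold OnE at h
    field_simp
    linear_combination -h
  · unfold OnE at h
    field_simp
    ring

omit [Algebra ℚ K] [DecidableEq K] in
lemma onE_add_T {x y : K} (h : OnE x y) (hx : x ≠ 0) :
    OnE (y / x ^ 2) (1 - y ^ 2 / x ^ 3) := by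
  unfold OnE at *
  have e : ∀ u : K, (1 - y ^ 2 / x ^ 3) ^ 2 - (1 - y ^ 2 / x ^ 3)
      - ((y / x ^ 2) ^ 3 - (y / x ^ 2) ^ 2) = y ^ 2 / x ^ 6 * (y ^ 2 - y - (x ^ 3 - x ^ 2)) := by
    intro _
    field_simp
    ring
  rw [← sub_eq_zero, e 0, h, sub_self, mul_zero]

section Galois

variable (σ : K ≃ₐ[ℚ] K)

omit [DecidableEq K] in
lemma onE_map {x y : K} (h : OnE x y) : OnE (σ x) (σ y) := by
  unfold OnE at *
  have := congrArg σ h
  simpa using this

lemma smul_pt {x y : K} (h : OnE x y) : σ • pt x y h = pt (σ x) (σ y) (onE_map σ h) := rfl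

lemma smul_T : σ • T K = T K := by
  rw [T, smul_pt, pt_inj]
  exact ⟨map_zero σ, map_zero σ⟩

lemma smul_nsmul_T (i : ℕ) : σ • (i • T K) = i • T K := by
  have := map_nsmul (DistribSMul.toAddMonoidHom (E11⁄K).Point σ) i (T K)
  simpa [smul_T] using this

end Galois

end Fermat.Agent.Eleven
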