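import Fermat.Agent.EC.Eleven.Lift

/-!
Multiplication by five pushes rational points of 11a3 into the kernel of reduction modulo `5`,
strictly deeper at each step.
-/

set_option autoImplicit false

open scoped WeierstrassCurve.Affine

namespace Fermat.Agent.Eleven

local notation "Qbar" => AlgebraicClosure ℚ

/-- `numV` homogenised. -/
def numInt {R : Type*} [CommRing R] (u W : R) : R :=
  u ^ 3 * (u - W) ^ 2 + (u - W) ^ 2 * W ^ 3 + 2 * u ^ 2 * (u - W) * W ^ 2 + u ^ 2 * W ^ 3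

/-- `denV` homogenised. -/
def denInt {R : Type*} [CommRing R] (u W : R) : R := u ^ 2 * (u - W) ^ 2 * W

/-- The fifth division polynomial, homogenised. -/
def psiInt {R : Type*} [CommRing R] (u W : R) : R :=
  u * (u - W) * (5 * numInt u W ^ 2 + 5 * numInt u W * denInt u W - 29 * denInt u W ^ 2)

/-- The numerator of `x(5P)`, homogenised. -/
def AInt {R : Type*} [CommRing R] (u W : R) : R :=
  numInt u W ^ 5 + 10 * numInt u W ^ 4 * denInt u W + 45 * numInt u W ^ 3 * denInt u W ^ 2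
    - 400 * numInt u W ^ 2 * denInt u W ^ 3 - 845 * numInt u W * denInt u W ^ 4
    - 775 * denInt u W ^ 5

lemma mod_five_facts : ∀ u v w : ZMod 5, v ^ 2 - v * w ^ 3 = u ^ 3 - u ^ 2 * w ^ 2 →
    ¬(u = 0 ∧ w = 0) → psiInt u (w ^ 2) = 0 ∧ AInt u (w ^ 2) ≠ 0 := by
  decide

lemma int_facts {u v w : ℤ} (hco : IsCoprime u w)
    (he : v ^ 2 - v * w ^ 3 = u ^ 3 - u ^ 2 * w ^ 2) :
    (5 : ℤ) ∣ psiInt u (w ^ 2) ∧ ¬ (5 : ℤ) ∣ AInt u (w ^ 2) := by
  have h := mod_five_facts (u : ZMod 5) (v : ZMod 5) (w : ZMod 5)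
      (by exact_mod_cast congrArg (Int.cast : ℤ → ZMod 5) he)
    (by
      rintro ⟨hu, hw⟩
      obtain ⟨a, b, hab⟩ := hco
      have := congrArg (Int.cast : ℤ → ZMod 5) hab
      push_cast at this
      rw [hu, hw] at this
      simp at this
      exact absurd this (by decide))
  have e5 : ∀ n : ℤ, (5 : ℤ) ∣ n ↔ (n : ZMod 5) = 0 := fun n =>
    ((ZMod.intCast_zmod_eq_zero_iff_dvd n 5).trans (by norm_num)).symm
  rw [e5, e5]
  simpa [psiInt, AInt, numInt, denInt] using h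

lemma isCoprime_sq_den {u w : ℤ} {x : ℚ} (hw : 0 < w) (hco : IsCoprime u w)
    (hx : x = u / w ^ 2) : (x.den : ℤ) = w ^ 2 := by
  have h := Rat.den_div_eq_of_coprime (a := u) (b := w ^ 2) (by positivity)
    (Int.isCoprime_iff_gcd_eq_one.mp hco.pow_right)
  rw [hx]
  exact_mod_cast h

/-- One step of the five-adic filtration. -/
lemma five_step {x y x' y' : ℚ} (h : OnE x y) (h' : OnE x' y')
    (he : (5 : ℕ) • ptQ x y h = ptQ x' y' h') {k : ℕ} (hk : (5 : ℤ) ^ (2 * k) ∣ (x.den : ℤ)) :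
    (5 : ℤ) ^ (2 * (k + 1)) ∣ (x'.den : ℤ) := by
  obtain ⟨u, v, w, hw, hco, hx, -, hEq⟩ := exists_int_coords h
  obtain ⟨u', v', w', hw', hco', hx', -, -⟩ := exists_int_coords h'
  rw [isCoprime_sq_den hw hco hx, pow_mul', Int.pow_dvd_pow_iff two_ne_zero] at hk
  rw [isCoprime_sq_den hw' hco' hx', pow_mul', Int.pow_dvd_pow_iff two_ne_zero]
  have hbar : x' * (x * (x - 1) * hhom (numV x) (denV x)) ^ 2 = Ahom (numV x) (denV x) := by
    have := five_nsmul_x _ _ he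
    apply (algebraMap ℚ Qbar).injective
    simp only [hhom, Ahom, numV, denV, map_mul, map_pow, map_sub, map_add, map_one,
      map_ofNat] at this ⊢
    exact this
  have hw0 : (w : ℚ) ≠ 0 := by exact_mod_cast hw.ne'
  have hint : u' * (w ^ 2 * psiInt u (w ^ 2) ^ 2) = AInt u (w ^ 2) * w' ^ 2 := by
    rw [hx, hx'] at hbar
    have hw0' : (w' : ℚ) ≠ 0 := by exact_mod_cast hw'.ne'
    have : ((u' * (w ^ 2 * psiInt u (w ^ 2) ^ 2) : ℤ) : ℚ) =
        ((AInt u (w ^ 2) * w' ^ 2 : ℤ) : ℚ) := by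
      simp only [psiInt, AInt, numInt, denInt]
      simp only [hhom, Ahom, numV, denV] at hbar
      push_cast
      field_simp at hbar ⊢
      linear_combination hbar
    exact_mod_cast this
  obtain ⟨h5, h5'⟩ := int_facts hco hEq
  have h5prime : Prime (5 : ℤ) := Int.prime_iff_natAbs_prime.mpr (by norm_num)
  have hdvd : ((5 : ℤ) ^ (k + 1)) ^ 2 ∣ AInt u (w ^ 2) * w' ^ 2 := by
    rw [← hint, show ((5 : ℤ) ^ (k + 1)) ^ 2 = ((5 : ℤ) ^ k) ^ 2 * 5 ^ 2 by ring]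
    exact dvd_mul_of_dvd_right (mul_dvd_mul (pow_dvd_pow_of_dvd hk 2) (pow_dvd_pow_of_dvd h5 2)) _
  have hcop : IsCoprime (((5 : ℤ) ^ (k + 1)) ^ 2) (AInt u (w ^ 2)) :=
    ((h5prime.coprime_iff_not_dvd.mpr h5').pow_left).pow_left
  exact (Int.pow_dvd_pow_iff two_ne_zero).mp (hcop.dvd_of_dvd_mul_left hdvd)

end Fermat.Agent.Eleven
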