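import Fermat.Agent.EC.Eleven.Node
import Fermat.Agent.EC.Reduction.Galois

/-!
The action of inertia on points of 11a3 moved by Galois only through translations by `⟨T⟩`.
-/

set_option autoImplicit false

open scoped Pointwise WeierstrassCurve.Affine
open Fermat.Agent.EC.Reduction WeierstrassCurve

namespace Fermat.Agent.Eleven

local notation "Qbar" => AlgebraicClosure ℚ
local notation "AbsGal" => AlgebraicClosure ℚ ≃ₐ[ℚ] AlgebraicClosure ℚ

variable {A : ValuationSubring Qbar}

lemma orbitPt_zero (R : (E11⁄Qbar).Point) : orbitPt R 0 = R := by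
  simp [orbitPt]

lemma orbitPt_succ (R : (E11⁄Qbar).Point) (i : ZMod 5) :
    orbitPt R (i + 1) = orbitPt R i + T Qbar := by
  rw [orbitPt, orbitPt, add_assoc, ← succ_nsmul]
  congr 1
  refine nsmul_T_eq_of_mod ?_
  rw [ZMod.val_add, Nat.mod_mod]
  rfl

/-- The coordinates of `R + T` in the local parameters at the node. -/
lemma orbitPt_next {R : (E11⁄Qbar).Point} {i : ZMod 5} {x y : Qbar} {h : OnE x y}
    (hi : orbitPt R i = pt x y h) (hx : x ≠ 0) :
    ∃ x' y' h', orbitPt R (i + 1) = pt x' y' h' ∧ x' = y / x ^ 2 :=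
  ⟨_, _, onE_add_T h hx, by rw [orbitPt_succ, hi, pt_add_T h hx], rfl⟩

lemma equation_at_node {x y : Qbar} (h : OnE x y) :
    (2 * y - 1) ^ 2 = 1793 + 704 * (x - 8) + 92 * (x - 8) ^ 2 + 4 * (x - 8) ^ 3 := by
  unfold OnE at h
  linear_combination 4 * h

lemma next_sub_eight (x y : Qbar) :
    y / x ^ 2 - 8 = ((2 * y - 1) + 1) / (2 * (8 + (x - 8)) ^ 2) - 8 := by
  rw [show (2 * y - 1) + 1 = 2 * y by ring, show 8 + (x - 8) = x by ring,
    mul_div_mul_left _ _ (two_ne_zero' Qbar)]

lemma val_eleven (hA : A.LiesOverPrime 11) :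
    A.valuation (11 : Qbar) < 1 ∧ A.valuation (11 : Qbar) ≠ 0 := by
  refine ⟨?_, by simp⟩
  simpa using val_intCast_lt (A := A) (L := Qbar) (by norm_num) hA (dvd_refl ((11 : ℕ) : ℤ))

/-- At a point reducing to the node, an inertia element fixing `11^(1/5)` cannot translate by
`T`. -/
theorem node_false (hA : A.LiesOverPrime 11) {R : (E11⁄Qbar).Point} (hR : IsTwisted R)
    {x y : Qbar} {h : OnE x y} (hRxy : R = pt x y h) (hx : A.valuation (x - 8) < 1)
    {z : Qbar} (hz : z ^ 5 = 11) {τ : AbsGal} (hτ : τ ∈ A.inertiaSubgroupIn ℚ)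
    (hτz : τ z = z) (hτR : τ • R = R + T Qbar) : False := by
  obtain ⟨a, ha⟩ := IsAlgClosed.exists_pow_nat_eq (11 : Qbar) (show 0 < 2 by norm_num)
  obtain ⟨h11, h110⟩ := val_eleven hA
  by_cases hII : A.valuation ((x - 8) / a) ≤ 1
  · -- the middle of the chain
    have hP : ∀ n : ℕ, ∃ x y h, orbitPt R (n : ZMod 5) = pt x y h ∧
        A.valuation ((x - 8) / a) ≤ 1 ∧ A.valuation ((2 * y - 1 + 2 * (x - 8)) / a) = 1 := by
      intro n
      suffices ∃ x y h, orbitPt R (n : ZMod 5) = pt x y h ∧ A.valuation ((x - 8) / a) ≤ 1 by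
        obtain ⟨x, y, h, h1, h2⟩ := this
        exact ⟨x, y, h, h1, h2, (node_step_ge hA ha h2 (equation_at_node h)).2.1⟩
      induction n with
      | zero => exact ⟨x, y, h, by rw [Nat.cast_zero, orbitPt_zero, hRxy], hII⟩
      | succ n ih =>
        obtain ⟨x, y, h, h1, h2⟩ := ih
        obtain ⟨h3, -, h4⟩ := node_step_ge hA ha h2 (equation_at_node h)
        obtain ⟨x', y', h', h5, rfl⟩ := orbitPt_next h1 (by simpa using h3)
        exact ⟨_, y', h', by rw [Nat.cast_succ, h5], by rwa [next_sub_eight]⟩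
    obtain ⟨r, hr⟩ := orbit_product_rat hR (fun x y => 2 * y - 1 + 2 * (x - 8))
      (fun σ x y => by simp only [map_add, map_mul, map_sub, map_ofNat, map_one])
    have hval : A.valuation (algebraMap ℚ Qbar r) = A.valuation a ^ 5 := by
      rw [hr, map_prod]
      have hterm : ∀ i : ZMod 5,
          A.valuation (2 * yco (orbitPt R i) - 1 + 2 * (xco (orbitPt R i) - 8))
            = A.valuation a := by
        intro i
        obtain ⟨x, y, h, h1, -, h2⟩ := hP i.val
        rw [ZMod.natCast_rightInverse i] at h1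
        rw [h1, xco_pt, yco_pt]
        rw [map_div₀] at h2
        exact eq_of_div_eq_one h2
      simp only [hterm, Finset.prod_const, Finset.card_univ, ZMod.card]
    have ha0 : A.valuation a ≠ 0 := by
      intro h0
      exact h110 (by rw [← ha, map_pow, h0]; simp)
    have hr0 : r ≠ 0 := by
      rintro rfl
      rw [map_zero, map_zero] at hval
      exact pow_ne_zero 5 ha0 hval.symm
    obtain ⟨v, hv⟩ := exists_val_ratCast (A := A) (L := Qbar) (by norm_num) hA hr0
    have hva : A.valuation a ^ 2 = A.valuation (11 : Qbar) := by rw [← map_pow, ha]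
    have heq : A.valuation (11 : Qbar) ^ (2 * v) = A.valuation (11 : Qbar) ^ (5 : ℤ) := by
      rw [mul_comm, zpow_mul, zpow_ofNat, zpow_ofNat,
        show A.valuation (11 : Qbar) ^ v = A.valuation a ^ 5 by rw [← hval, hv]; norm_num,
        ← pow_mul, ← hva, ← pow_mul]
    have := zpow_right_injective₀ (zero_lt_iff.mpr h110) h11.ne heq
    omega
  · -- the ends of the chain
    have hd0 : x - 8 ≠ 0 := fun h0 => hII (by simp [h0])
    have had : A.valuation (a / (x - 8)) < 1 := by
      rw [not_le] at hII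
      rw [← inv_div, map_inv₀]
      exact inv_lt_one_of_one_lt₀ hII
    have hP : ∀ n : ℕ, ∃ x' y' h', orbitPt R (n : ZMod 5) = pt x' y' h' ∧
        A.valuation (x' - 8) = A.valuation (x - 8) := by
      intro n
      induction n with
      | zero => exact ⟨x, y, h, by rw [Nat.cast_zero, orbitPt_zero, hRxy], rfl⟩
      | succ n ih =>
        obtain ⟨x', y', h', h1, h2⟩ := ih
        obtain ⟨h3, h4, -⟩ := node_step_lt hA ha
          (fun h0 => by rw [h0, map_zero] at h2; exact hd0 (A.valuation.zero_iff.mp h2.symm))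
          (h2 ▸ hx) (by rw [map_div₀, h2, ← map_div₀]; exact had) (equation_at_node h')
        obtain ⟨x'', y'', h'', h5, rfl⟩ := orbitPt_next h1 (by simpa using h3)
        refine ⟨_, y'', h'', by rw [Nat.cast_succ, h5], ?_⟩
        rw [next_sub_eight]
        rw [map_div₀] at h4
        exact (eq_of_div_eq_one h4).trans h2
    obtain ⟨r, hr⟩ := orbit_product_rat hR (fun x _ => x - 8)
      (fun σ x _ => by simp only [map_sub, map_ofNat])
    have hval : A.valuation (algebraMap ℚ Qbar r) = A.valuation (x - 8) ^ 5 := by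
      rw [hr, map_prod]
      have hterm : ∀ i : ZMod 5, A.valuation (xco (orbitPt R i) - 8) = A.valuation (x - 8) := by
        intro i
        obtain ⟨x', y', h', h1, h2⟩ := hP i.val
        rw [ZMod.natCast_rightInverse i] at h1
        rw [h1, xco_pt, h2]
      simp only [hterm, Finset.prod_const, Finset.card_univ, ZMod.card]
    have hr0 : r ≠ 0 := by
      rintro rfl
      rw [map_zero, map_zero] at hval
      exact pow_ne_zero 5 ((A.valuation.ne_zero_iff).mpr hd0) hval.symm
    obtain ⟨v, hv⟩ := exists_val_ratCast (A := A) (L := Qbar) (by norm_num) hA hr0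
    have hz0 : z ≠ 0 := fun h0 => by simp [h0] at hz
    set u := (x - 8) / z ^ v with hu
    have hu1 : A.valuation u = 1 := by
      refine val_eq_one_of_pow (show 5 ≠ 0 by norm_num) ?_
      rw [hu, map_div₀, map_zpow₀, div_pow, ← zpow_natCast (A.valuation z ^ v), ← zpow_mul,
        mul_comm v, zpow_mul, zpow_natCast, ← map_pow A.valuation z, hz, ← hval, hv,
        Nat.cast_ofNat]
      exact div_self (zpow_ne_zero _ h110)
    obtain ⟨hx0', -, hne⟩ := node_step_lt hA ha hd0 hx had (equation_at_node h)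
    obtain ⟨x', y', h', h5, rfl⟩ :=
      orbitPt_next (R := R) (i := 0) (by rw [orbitPt_zero, hRxy]) (by simpa using hx0')
    rw [orbitPt_succ, orbitPt_zero, ← hτR] at h5
    have hτx : τ x = y / x ^ 2 := by
      have := congrArg xco h5
      rwa [xco_smul, hRxy, xco_pt, xco_pt] at this
    have hτu : τ u - u = u * (((2 * y - 1) + 1) / (2 * (8 + (x - 8)) ^ 2) - 8) / (x - 8) - u := by
      rw [← next_sub_eight, hu, map_div₀, map_zpow₀, hτz, map_sub, map_ofNat, hτx]
      field_simp
    have hlt := val_apply_sub_lt hτ hu1.le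
    rw [hτu, mul_div_assoc, ← mul_sub_one, map_mul, hu1, hne, one_mul] at hlt
    exact lt_irrefl _ hlt

/-- The residue field version of the smooth locus at `11`. -/
lemma nonsingular_residue_of_ne_eight {k : Type*} [Field k] (h11 : (11 : k) = 0)
    {x₀ y₀ : k} (heq : (W11.map (Int.castRingHom k)).toAffine.Equation x₀ y₀) (hx : x₀ ≠ 8) :
    (W11.map (Int.castRingHom k)).toAffine.Nonsingular x₀ y₀ := by
  rw [Affine.nonsingular_iff']
  refine ⟨heq, ?_⟩
  rw [Affine.equation_iff] at heq
  simp only [map_a₁, map_a₂, map_a₃, map_a₄, map_a₆, eq_intCast, Int.cast_zero, Int.cast_neg,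
    Int.cast_one] at heq ⊢
  by_contra hc
  push Not at hc
  obtain ⟨hX, hY⟩ := hc
  have hX' : x₀ * (3 * x₀ - 2) = 0 := by linear_combination -hX
  rcases mul_eq_zero.mp hX' with h0 | h0
  · subst h0
    have h1 : (1 : k) = 0 := by linear_combination (2 * y₀ - 1) * hY - 4 * heq
    exact one_ne_zero h1
  · have h3 : (3 : k) * (x₀ - 8) = 0 := by linear_combination h0 - 2 * h11
    rcases mul_eq_zero.mp h3 with h4 | h4
    · exact one_ne_zero (by linear_combination 4 * h4 - h11 : (1 : k) = 0)
    · exact hx (sub_eq_zero.mp h4)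

/-- A multiple of `T` reducing to the point at infinity vanishes. -/
lemma nsmul_T_eq_zero_of_redTo_zero {k : Type*} [Field k] {π : A →+* k} {m : ℕ}
    (h : RedTo π (W11.map (Int.castRingHom k)) (m • T Qbar) 0) : m • T Qbar = 0 := by
  rcases nsmul_T_cases (K := Qbar) m with h' | h' | h' | h' | h'
  · exact h'
  all_goals
    exfalso
    rw [h'] at h
    rcases h with ⟨hx, -⟩ | ⟨x₀, y₀, h₀, -, -, h0⟩
    · first | exact hx (zero_mem A) | exact hx (one_mem A)
    · exact Affine.Point.some_ne_zero h₀ h0.symm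

/-- Inertia fixes a point with nonsingular reduction that it can only translate by `⟨T⟩`. -/
lemma smul_eq_of_redTo_twisted {k : Type*} [Field k] (π : A →+* k) [IsLocalHom π]
    {σ : AbsGal} (hσ : σ ∈ A.inertiaSubgroupIn ℚ) {R : (E11⁄Qbar).Point} {m : ℕ}
    (hm : σ • R = R + m • T Qbar)
    (hgood : ∃ Q, RedTo π (W11.map (Int.castRingHom k)) R Q) : σ • R = R := by
  classical
  obtain ⟨Q, hQ⟩ := hgood
  have hred : Reduces π (E11⁄Qbar) (W11.map (Int.castRingHom k)) := reduces_intModel W11 π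
  have h1 := (redTo_smul_of_mem_inertia hσ hQ).add hred (hQ.neg hred)
  rw [hm, add_neg_cancel, show R + m • T Qbar + -R = m • T Qbar by abel] at h1
  rw [hm, nsmul_T_eq_zero_of_redTo_zero h1, add_zero]

/-- Inertia at `q ≠ 11` fixes twisted points. -/
theorem inertia_fix_of_ne_eleven {q : ℕ} (hq : q.Prime) (hA : A.LiesOverPrime q) (h : q ≠ 11)
    {σ : AbsGal} (hσ : σ ∈ A.inertiaSubgroupIn ℚ) {R : (E11⁄Qbar).Point} (hR : IsTwisted R) :
    σ • R = R := by
  obtain ⟨m, hm⟩ := hR σ
  have hΔ : W11.Δ = -11 := by decide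
  refine smul_eq_of_redTo_twisted (IsLocalRing.residue A) hσ hm
    (exists_redTo_of_Δ_ne_zero (reduces_intModel W11 _)
      (Δ_intModel_ne_zero (IsLocalRing.residue A) hq hA ?_) R)
  rw [hΔ, dvd_neg, show (11 : ℤ) = ((11 : ℕ) : ℤ) from rfl, Int.natCast_dvd_natCast,
    Nat.prime_dvd_prime_iff_eq hq (by norm_num)]
  exact h

/-- Inertia at `11` fixing a fifth root of `11` fixes twisted points. -/
theorem inertia_fix_eleven (hA : A.LiesOverPrime 11) {σ : AbsGal}
    (hσ : σ ∈ A.inertiaSubgroupIn ℚ) {z : Qbar} (hz : z ^ 5 = 11) (hσz : σ z = z)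
    {R : (E11⁄Qbar).Point} (hR : IsTwisted R) : σ • R = R := by
  classical
  obtain ⟨m, hm⟩ := hR σ
  by_contra hne
  have hm0 : (m : ZMod 5) ≠ 0 := by
    intro h0
    apply hne
    rw [hm, nsmul_T_eq_of_mod (b := 0) ?_, zero_nsmul, add_zero]
    have := congrArg ZMod.val h0
    rwa [ZMod.val_natCast, ZMod.val_zero] at this
  by_cases hgood : ∃ Q, RedTo (IsLocalRing.residue A)
      (W11.map (Int.castRingHom (IsLocalRing.ResidueField A))) R Q
  · exact hne (smul_eq_of_redTo_twisted _ hσ hm hgood)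
  -- the point reduces to the node
  have hR0 : R ≠ 0 := by
    rintro rfl
    exact hgood ⟨0, RedTo.zero⟩
  obtain ⟨x, y, h, hRxy⟩ := exists_pt hR0
  have hxA : x ∈ A := by
    by_contra hx
    exact hgood ⟨0, hRxy ▸ RedTo.of_notMem hx⟩
  have hred := reduces_intModel (K := Qbar) W11 (IsLocalRing.residue A)
  have hyA : y ∈ A := hred.y_mem (onE_iff.mpr h) hxA
  have hx8 : A.valuation (x - 8) < 1 := by
    by_contra hx8
    apply hgood
    have heq := hred.equation (onE_iff.mpr h) (Res.of_mem (IsLocalRing.residue A) hxA)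
      (Res.of_mem (IsLocalRing.residue A) hyA)
    have h11 : ((11 : ℕ) : IsLocalRing.ResidueField A) = 0 := by
      rw [← map_natCast (IsLocalRing.residue A)]
      exact map_natCast_eq_zero (π := IsLocalRing.residue A) hA
    rw [hRxy]
    refine ⟨_, RedTo.of_res (h₀ := nonsingular_residue_of_ne_eight (by exact_mod_cast h11) heq ?_)
      (Res.of_mem _ hxA) (Res.of_mem _ hyA)⟩
    intro h8
    apply hx8
    rw [← A.mem_nonunits_iff]
    have h8' : IsLocalRing.residue A ⟨x, hxA⟩ = IsLocalRing.residue A (8 : A) := by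
      rw [h8]; exact (map_ofNat _ 8).symm
    rw [Gal.residue_eq_residue_iff] at h8'
    norm_num at h8'
    exact_mod_cast h8'
  -- a power of `σ` translates by `T`
  have : Fact (Nat.Prime 5) := ⟨by norm_num⟩
  obtain ⟨j, hj⟩ : ∃ j : ℕ, ((j * m : ℕ) : ZMod 5) = 1 :=
    ⟨((m : ZMod 5)⁻¹).val, by push_cast; rw [ZMod.natCast_rightInverse, inv_mul_cancel₀ hm0]⟩
  have hpow : ∀ j : ℕ, (σ ^ j) • R = R + (j * m) • T Qbar ∧ (σ ^ j) z = z := by
    intro j
    induction j with
    | zero => exact ⟨by simp, rfl⟩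
    | succ j ih =>
      refine ⟨?_, by rw [pow_succ, AlgEquiv.mul_apply, hσz, ih.2]⟩
      rw [pow_succ, mul_smul, hm]
      have e : (σ ^ j) • (R + m • T Qbar) = (σ ^ j) • R + (σ ^ j) • (m • T Qbar) :=
        smul_add (σ ^ j) R _
      rw [e, ih.1, smul_nsmul_T, add_assoc, ← add_nsmul]
      congr 2
      ring
  refine node_false hA hR hRxy hx8 hz ((A.inertiaSubgroupIn ℚ).pow_mem hσ j) (hpow j).2 ?_
  rw [(hpow j).1, nsmul_T_eq_of_mod (b := 1) ?_, one_nsmul]
  have := congrArg ZMod.val hj
  rw [ZMod.val_natCast, ZMod.val_one] at this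
  exact this

end Fermat.Agent.Eleven
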