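import Fermat.Agent.EC.Eleven.Tate
import Fermat.Agent.EC.Reduction.VariableChange

/-!
The point of 11a3 attached to a point of order eleven, and its behaviour under doubling.
-/

set_option autoImplicit false

open WeierstrassCurve
open scoped WeierstrassCurve.Affine

namespace Fermat.Agent.Eleven

variable {K : Type*} [Field K] [Algebra ℚ K] [DecidableEq K]

/-- The abscissa on 11a3 attached to `(x₀, y₀)`. -/
def paramX (W : WeierstrassCurve K) (x₀ y₀ : K) : K :=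
  (tateB W x₀ y₀ / tateC W x₀ y₀ - 1) /
    (tateC W x₀ y₀ / (tateB W x₀ y₀ / tateC W x₀ y₀ - 1) - 1)

/-- The ordinate on 11a3 attached to `(x₀, y₀)`. -/
def paramY (W : WeierstrassCurve K) (x₀ y₀ : K) : K :=
  tateB W x₀ y₀ / tateC W x₀ y₀

section Equivariance

variable {L : Type*} [Field L] [Algebra ℚ L] [DecidableEq L]

omit [Algebra ℚ K] [DecidableEq K] [Algebra ℚ L] [DecidableEq L] in
lemma param_map (f : K →+* L) (W : WeierstrassCurve K) (x₀ y₀ : K) :
    f (paramX W x₀ y₀) = paramX (W.map f) (f x₀) (f y₀) ∧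
      f (paramY W x₀ y₀) = paramY (W.map f) (f x₀) (f y₀) := by
  constructor <;>
    simp only [paramX, paramY, tateB, tateC, tB₁, tB₂, tS, tA₂, tA₃, tA₄, map_a₁, map_a₂, map_a₃,
      map_a₄, map_div₀, map_sub, map_neg, map_pow, map_mul, map_add, map_one, map_ofNat]

end Equivariance

omit [Algebra ℚ K] [DecidableEq K] in
lemma w_mul_neg {x y : K} (h : OnE x y) : (x + y - 1) * (x - y) = -(x * (x - 1) ^ 2) := by
  unfold OnE at h
  linear_combination -h

/-- The translate by `2T`. -/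
lemma pt_add_two_T {x y : K} (h : OnE x y) (hx1 : x ≠ 1) :
    ∃ h', pt x y h + (2 : ℕ) • T K = pt ((x ^ 2 - x + 1 - y) / (x - 1) ^ 2)
      (((x - 1) ^ 3 - (y - 1) * (x ^ 2 - x + 1 - y - x * (x - 1) ^ 2) - y * (x - 1) ^ 3)
        / (x - 1) ^ 3) h' := by
  have hD : x - 1 ≠ 0 := sub_ne_zero.mpr hx1
  obtain ⟨a, b, h', he⟩ := exists_pt (P := pt x y h + (2 : ℕ) • T K) (by
    intro h0
    have : IsTMul (pt x y h) := ⟨3, by
      rw [eq_neg_of_add_eq_zero_left h0, eq_neg_iff_add_eq_zero, ← add_nsmul, five_T]⟩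
    rw [isTMul_iff_x] at this
    rcases this with hx0 | hx1'
    · rw [two_T, pt, pt, Affine.Point.add_of_X_ne hx1] at h0
      exact Affine.Point.some_ne_zero _ h0
    · exact hx1 hx1')
  have e := he
  rw [two_T, pt, pt, Affine.Point.add_of_X_ne hx1, pt, Affine.Point.some.injEq] at e
  simp only [Affine.addX, Affine.addY, Affine.negAddY, Affine.negY, Affine.slope_of_X_ne hx1,
    a₁_eq, a₂_eq, a₃_eq] at e
  obtain ⟨ea, eb⟩ := e
  have h1 : a = (x ^ 2 - x + 1 - y) / (x - 1) ^ 2 := by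
    rw [← ea]
    unfold OnE at h
    field_simp
    linear_combination h
  have h2 : b = ((x - 1) ^ 3 - (y - 1) * (x ^ 2 - x + 1 - y - x * (x - 1) ^ 2) - y * (x - 1) ^ 3)
      / (x - 1) ^ 3 := by
    rw [← eb]
    unfold OnE at h
    field_simp
    linear_combination -(y - 1) * h
  subst h1 h2
  exact ⟨h', he⟩

omit [Algebra ℚ K] [DecidableEq K] in
/-- Doubling in the Tate normal form, in the coordinates of 11a3. -/
lemma tate_double {x y : K} (h : OnE x y) (hx0 : x ≠ 0) (hx1 : x ≠ 1)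
    {b c : K} (hb : b = x * (x - 1) * (x + y - 1)) (hc : c = (y - 1) * (x + y - 1) / x) :
    tA₃ (tate b c) b (b * c) ≠ 0 ∧
    tateB (tate b c) b (b * c) = -(x ^ 3 * (x - 1) * (y - 1)) / (x + y - 1) ^ 4 ∧
    tateC (tate b c) b (b * c) = x * (x - y) / (x + y - 1) ^ 2 := by
  have hD : x - 1 ≠ 0 := sub_ne_zero.mpr hx1
  have hw : x + y - 1 ≠ 0 := fun h0 => by
    have := w_mul_neg h
    rw [h0, zero_mul, eq_comm, neg_eq_zero] at this
    exact mul_ne_zero hx0 (pow_ne_zero 2 hD) this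
  have hy : y * (y - 1) = x ^ 2 * (x - 1) := by unfold OnE at h; linear_combination h
  have hy0 : y ≠ 0 := left_ne_zero_of_mul (hy ▸ mul_ne_zero (pow_ne_zero 2 hx0) hD)
  have hy1 : y - 1 ≠ 0 := right_ne_zero_of_mul (hy ▸ mul_ne_zero (pow_ne_zero 2 hx0) hD)
  have hbc : b = y * c := by
    rw [hb, hc, mul_div_assoc', eq_div_iff hx0]
    linear_combination -(x + y - 1) * hy
  have hc0 : c ≠ 0 := by rw [hc]; exact div_ne_zero (mul_ne_zero hy1 hw) hx0
  have hA3 : tA₃ (tate b c) b (b * c) = b * c := by simp only [tA₃, tate]; ring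
  refine ⟨?_, ?_⟩
  · rw [hA3, hbc]; exact mul_ne_zero (mul_ne_zero hy0 hc0) hc0
  have hs : tS (tate b c) b (b * c) = y - 1 + c := by
    rw [tS, hA3, hbc, div_eq_iff (mul_ne_zero (mul_ne_zero hy0 hc0) hc0)]
    simp only [tA₄, tate]
    ring
  have hB2 : tB₂ (tate b c) b (b * c) = y * (c - y + 1) := by
    rw [tB₂, hs, hbc]
    simp only [tA₂, tate]
    ring
  have hcy : c - y + 1 = (y - 1) * (y - 1) / x := by
    rw [hc]; field_simp; ring
  constructor
  · have e : tateB (tate b c) b (b * c)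
        = -((y * (y - 1)) * (y - 1) * x) / (x + y - 1) ^ 4 := by
      rw [tateB, hB2, hcy, hA3, hbc, hc]
      field_simp
    rw [e, hy]
    ring
  · rw [tateC, tB₁, hs, hB2, hcy, hA3, hbc, show (tate (y * c) c).a₁ = 1 - c from rfl, hc]
    field_simp
    ring

omit [Algebra ℚ K] [DecidableEq K] in
/-- The identity `b' = x'(x'-1)(x'+y'-1)` after doubling. -/
lemma double_b_identity {x y : K} (h : OnE x y) :
    -(x ^ 3 * (x - 1) * (y - 1)) * (x - 1) ^ 7 =
      (x ^ 2 - x + 1 - y) * ((x ^ 2 - x + 1 - y) - (x - 1) ^ 2) *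
        ((x - 1) * (x ^ 2 - x + 1 - y) +
          ((x - 1) ^ 3 - (y - 1) * (x ^ 2 - x + 1 - y - x * (x - 1) ^ 2) - y * (x - 1) ^ 3)
          - (x - 1) ^ 3) * (x + y - 1) ^ 4 := by
  unfold OnE at h
  linear_combination ((-1) * y ^ 2 + (4) * y ^ 3 + (-6) * y ^ 4 + (4) * y ^ 5 -  y ^ 6 +
    (3) * x * y + (-7) * x * y ^ 2 + (3) * x * y ^ 3 + (3) * x * y ^ 4 + (-2) * x * y ^ 5 +
    (-3) * x ^ 2 + (-4) * x ^ 2 * y + (19) * x ^ 2 * y ^ 2 + (-13) * x ^ 2 * y ^ 3 + x ^ 2 * y ^ 5 +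
    (14) * x ^ 3 + (-9) * x ^ 3 * y + (-18) * x ^ 3 * y ^ 2 + (12) * x ^ 3 * y ^ 3 + (-28) * x ^ 4 +
    (28) * x ^ 4 * y + (9) * x ^ 4 * y ^ 2 + (-6) * x ^ 4 * y ^ 3 + (31) * x ^ 5 +
    (-33) * x ^ 5 * y + (-2) * x ^ 5 * y ^ 2 + x ^ 5 * y ^ 3 + (-20) * x ^ 6 + (21) * x ^ 6 * y +
    (7) * x ^ 7 + (-7) * x ^ 7 * y -  x ^ 8 + x ^ 8 * y) * h

omit [Algebra ℚ K] [DecidableEq K] in
/-- The identity `c' x' = (y'-1)(x'+y'-1)` after doubling. -/
lemma double_c_identity {x y : K} (h : OnE x y) :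
    x * (x - y) * (x ^ 2 - x + 1 - y) * (x - 1) ^ 4 =
      (((x - 1) ^ 3 - (y - 1) * (x ^ 2 - x + 1 - y - x * (x - 1) ^ 2) - y * (x - 1) ^ 3)
        - (x - 1) ^ 3) *
        ((x - 1) * (x ^ 2 - x + 1 - y) +
          ((x - 1) ^ 3 - (y - 1) * (x ^ 2 - x + 1 - y - x * (x - 1) ^ 2) - y * (x - 1) ^ 3)
          - (x - 1) ^ 3) * (x + y - 1) ^ 2 := by
  unfold OnE at h
  linear_combination (y + (-2) * y ^ 2 + (2) * y ^ 3 -  y ^ 4 -  x -  x * y ^ 2 + x * y ^ 3 +
    (2) * x ^ 2 + (2) * x ^ 2 * y + (-3) * x ^ 3 + (-3) * x ^ 3 * y + (3) * x ^ 4 + x ^ 4 * y -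
    x ^ 5) * h

omit [Algebra ℚ K] [DecidableEq K] in
/-- Recovering `(x, y)` from the Tate parameters. -/
lemma param_of_bc {x y : K} (h : OnE x y) (hx0 : x ≠ 0) (hx1 : x ≠ 1) :
    x * (x - 1) * (x + y - 1) / ((y - 1) * (x + y - 1) / x) = y ∧
      (x * (x - 1) * (x + y - 1) / ((y - 1) * (x + y - 1) / x) - 1) /
        ((y - 1) * (x + y - 1) / x /
          (x * (x - 1) * (x + y - 1) / ((y - 1) * (x + y - 1) / x) - 1) - 1) = x := by
  have hD : x - 1 ≠ 0 := sub_ne_zero.mpr hx1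
  have hw : x + y - 1 ≠ 0 := fun h0 => by
    have := w_mul_neg h
    rw [h0, zero_mul, eq_comm, neg_eq_zero] at this
    exact mul_ne_zero hx0 (pow_ne_zero 2 hD) this
  have hy : y * (y - 1) = x ^ 2 * (x - 1) := by unfold OnE at h; linear_combination h
  have hy1 : y - 1 ≠ 0 := right_ne_zero_of_mul (hy ▸ mul_ne_zero (pow_ne_zero 2 hx0) hD)
  have h1 : x * (x - 1) * (x + y - 1) / ((y - 1) * (x + y - 1) / x) = y := by
    field_simp
    linear_combination -hy
  refine ⟨h1, ?_⟩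
  rw [h1]
  rw [show (y - 1) * (x + y - 1) / x / (y - 1) - 1 = (y - 1) / x by field_simp; ring,
    div_div_eq_mul_div, mul_div_cancel_left₀ _ hy1]

/-- The point of 11a3 attached to a point of order eleven, with the effect of doubling. -/
theorem param_spec (W : WeierstrassCurve K) {x₀ y₀ : K} (h₀ : W.toAffine.Nonsingular x₀ y₀)
    (h11 : addOrderOf (Affine.Point.some x₀ y₀ h₀) = 11) :
    ∃ (x y : K) (h : OnE x y) (C : VariableChange K),
      paramX W x₀ y₀ = x ∧ paramY W x₀ y₀ = y ∧ x ≠ 0 ∧ x ≠ 1 ∧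
      C • W = tate (x * (x - 1) * (x + y - 1)) ((y - 1) * (x + y - 1) / x) ∧
      ∀ (x₂ y₂ : K) (h₂ : W.toAffine.Nonsingular x₂ y₂),
        (2 : ℕ) • Affine.Point.some x₀ y₀ h₀ = Affine.Point.some x₂ y₂ h₂ →
        ∀ (x' y' : K) (h' : OnE x' y'), pt x y h + (2 : ℕ) • T K = pt x' y' h' →
          paramX W x₂ y₂ = x' ∧ paramY W x₂ y₂ = y' := by
  set P := Affine.Point.some x₀ y₀ h₀ with hPdef
  have hord : ∀ n : ℕ, n • P = 0 → 11 ∣ n := fun n hn =>
    h11 ▸ addOrderOf_dvd_of_nsmul_eq_zero hn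
  have hyne : y₀ ≠ W.toAffine.negY x₀ y₀ := fun hy => by
    have := hord 2 (by rw [two_nsmul, hPdef, Affine.Point.add_self_of_Y_eq hy])
    norm_num at this
  have hA₃ : tA₃ W x₀ y₀ ≠ 0 := fun h0 => hyne (by
    simp only [tA₃] at h0
    simp only [Affine.negY]
    linear_combination h0)
  have hB₂ : tB₂ W x₀ y₀ ≠ 0 := by
    intro h0
    have hl : W.toAffine.slope x₀ x₀ y₀ y₀ = tS W x₀ y₀ := by
      rw [Affine.slope_of_Y_ne rfl hyne, tS]
      congr 1
      · simp only [tA₄]; ring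
      · simp only [tA₃, Affine.negY]; ring
    have hx2 : W.toAffine.addX x₀ x₀ (W.toAffine.slope x₀ x₀ y₀ y₀) = x₀ := by
      simp only [tB₂, tA₂] at h0
      rw [hl, Affine.addX]
      linear_combination -h0
    rcases (Affine.Point.X_eq_iff (h₁ := Affine.nonsingular_add h₀ h₀ fun hxy => hyne hxy.2)
      (h₂ := h₀)).mp hx2 with he | he <;> rw [← Affine.Point.add_self_of_Y_ne (h₁ := h₀) hyne] at he
    · exact Affine.Point.some_ne_zero h₀ (add_eq_left.mp he)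
    · have := hord 3 (by
        rw [succ_nsmul, two_nsmul]
        exact eq_neg_iff_add_eq_zero.mp he)
      norm_num at this
  set b := tateB W x₀ y₀ with hbdef
  set c := tateC W x₀ y₀ with hcdef
  have hb : b ≠ 0 := div_ne_zero (neg_ne_zero.mpr (pow_ne_zero 3 hB₂)) (pow_ne_zero 2 hA₃)
  set C := toTate W x₀ y₀ hB₂ hA₃ with hCdef
  have hCW : C • W = tate b c := toTate_smul W x₀ y₀ h₀.1 hB₂ hA₃
  set φ : (tate b c).toAffine.Point ≃+ W.toAffine.Point :=
    (EC.Reduction.pointCongr hCW.symm).trans (EC.Reduction.variableChangePointEquiv C W) with hφ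
  have hφsome : ∀ (u v : K) (huv : (tate b c).toAffine.Nonsingular u v),
      ∃ hh, φ (.some u v huv) = .some ((C.u : K) ^ 2 * u + C.r)
        ((C.u : K) ^ 3 * v + (C.u : K) ^ 2 * C.s * u + C.t) hh := by
    intro u v huv
    rw [hφ, AddEquiv.trans_apply, EC.Reduction.pointCongr_some]
    exact ⟨_, rfl⟩
  have hφ0 : φ (P₀ hb) = P := by
    obtain ⟨hh, he⟩ := hφsome 0 0 (tate_nonsingular_zero hb)
    rw [P₀, he, hPdef, Affine.Point.some.injEq]
    simp [hCdef, toTate]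
  have h11' : addOrderOf (P₀ (c := c) hb) = 11 := by
    rw [← addOrderOf_injective φ.toAddMonoidHom φ.injective]
    exact hφ0 ▸ h11
  obtain ⟨r, s, h2, hr, hs, hr0, hr1, hs0, hs1, hrel, h2P⟩ := tate_eleven hb h11'
  set x := (r - 1) / (s - 1) with hx
  have hx0 : x ≠ 0 := div_ne_zero hr1 hs1
  have hrs : r - s ≠ 0 := right_ne_zero_of_mul (hrel ▸ mul_ne_zero hr0 (pow_ne_zero 3 hs1))
  have hx1 : x ≠ 1 := fun h1 => hrs (by
    rw [hx, div_eq_one_iff_eq hs1] at h1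
    linear_combination h1)
  have hE : OnE x r := by
    unfold OnE
    rw [hx, div_pow, div_pow]
    field_simp
    linear_combination hrel
  have hsw : s = (x + r - 1) / x := by
    rw [eq_div_iff hx0, hx]
    field_simp
    ring
  have hc' : c = (r - 1) * (x + r - 1) / x := by rw [hs, hsw]; ring
  have hb' : b = x * (x - 1) * (x + r - 1) := by
    rw [hr, hc', mul_div_assoc', div_eq_iff hx0]
    unfold OnE at hE
    linear_combination (x + r - 1) * hE
  obtain ⟨hy', hxx⟩ := param_of_bc hE hx0 hx1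
  have hX : paramX W x₀ y₀ = x := by
    rw [paramX, ← hbdef, ← hcdef, hb', hc']; exact hxx
  have hY : paramY W x₀ y₀ = r := by
    rw [paramY, ← hbdef, ← hcdef, hb', hc']; exact hy'
  refine ⟨x, r, hE, C, hX, hY, hx0, hx1, by rw [hCW, hb', hc'], ?_⟩
  intro x₂ y₂ h₂ h2x x' y' h' hT
  obtain ⟨hA, hB', hC'⟩ := tate_double hE hx0 hx1 hb' hc'
  have hcoord : x₂ = (C.u : K) ^ 2 * b + C.r ∧
      y₂ = (C.u : K) ^ 3 * (b * c) + (C.u : K) ^ 2 * C.s * b + C.t := by
    have hh2 := congrArg φ h2P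
    rw [map_nsmul, hφ0, h2x] at hh2
    obtain ⟨hh, he⟩ := hφsome b (b * c) h2
    rw [he, Affine.Point.some.injEq] at hh2
    exact hh2
  obtain ⟨hB2, hC2⟩ := tate_variableChange W C b (b * c) (by rw [hCW]; exact hA)
  rw [← hcoord.1, ← hcoord.2, hCW, hB'] at hB2
  rw [← hcoord.1, ← hcoord.2, hCW, hC'] at hC2
  obtain ⟨h'', hT'⟩ := pt_add_two_T hE hx1
  rw [hT, pt_inj] at hT'
  have hx'0 : x' ≠ 0 ∧ x' ≠ 1 := by
    have hns : ¬ IsTMul (pt x' y' h') := by
      rintro ⟨i, hi⟩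
      have : IsTMul (pt x r hE) := ⟨i + 3, by
        rw [add_nsmul, hi, ← hT, add_assoc, ← add_nsmul, five_T, add_zero]⟩
      rw [isTMul_iff_x] at this
      tauto
    rw [isTMul_iff_x] at hns
    tauto
  obtain ⟨hy'', hxx'⟩ := param_of_bc h' hx'0.1 hx'0.2
  have hD : x - 1 ≠ 0 := sub_ne_zero.mpr hx1
  have hw : x + r - 1 ≠ 0 := fun h0 => by
    have := w_mul_neg hE
    rw [h0, zero_mul, eq_comm, neg_eq_zero] at this
    exact mul_ne_zero hx0 (pow_ne_zero 2 hD) this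
  obtain ⟨ex, ey⟩ := hT'
  have hB3 : tateB W x₂ y₂ = x' * (x' - 1) * (x' + y' - 1) := by
    rw [hB2, ex, ey]
    field_simp
    linear_combination double_b_identity hE
  have hC3 : tateC W x₂ y₂ = (y' - 1) * (x' + y' - 1) / x' := by
    rw [hC2, eq_div_iff hx'0.1, ex, ey]
    field_simp
    linear_combination double_c_identity hE
  exact ⟨by rw [paramX, hB3, hC3]; exact hxx', by rw [paramY, hB3, hC3]; exact hy''⟩

end Fermat.Agent.Eleven
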