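import Fermat.Agent.EC.Eleven.Points
import Fermat.Agent.EC.Eleven.Moduli

/-!
The noncuspidal curves with a Galois stable line of order eleven have `j` integral at `2`: for a
twisted point `R ∉ ⟨T⟩` the parameters `b, c` are units at every place over `2` and the discriminant
of the Tate normal form is a unit or zero.
-/

set_option autoImplicit false

open scoped WeierstrassCurve.Affine
open Polynomial

namespace Fermat.Agent.Eleven

local notation "Qbar" => AlgebraicClosure ℚ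
local notation "AbsGal" => AlgebraicClosure ℚ ≃ₐ[ℚ] AlgebraicClosure ℚ

/-- A rational root of `X⁴ + 15X³ + 120X² + 200X + 155`: none. -/
lemma quartic_five_ne_zero (t : ℚ) : t ^ 4 + 15 * t ^ 3 + 120 * t ^ 2 + 200 * t + 155 ≠ 0 := by
  intro h
  have hd : (t.den : ℚ) ≠ 0 := by exact_mod_cast t.den_ne_zero
  have hco : IsCoprime t.num (t.den : ℤ) := Int.isCoprime_iff_gcd_eq_one.mpr t.reduced
  rw [← Rat.num_div_den t] at h
  field_simp at h
  have hZ : t.num ^ 4 + 15 * t.num ^ 3 * (t.den : ℤ) + 120 * t.num ^ 2 * (t.den : ℤ) ^ 2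
      + 200 * t.num * (t.den : ℤ) ^ 3 + 155 * (t.den : ℤ) ^ 4 = 0 := by
    have h' : ((t.num ^ 4 + 15 * t.num ^ 3 * (t.den : ℤ) + 120 * t.num ^ 2 * (t.den : ℤ) ^ 2
        + 200 * t.num * (t.den : ℤ) ^ 3 + 155 * (t.den : ℤ) ^ 4 : ℤ) : ℚ) = 0 := by
      push_cast
      linear_combination h
    exact_mod_cast h'
  have key : ∀ n d : ZMod 3, n ^ 4 + 15 * n ^ 3 * d + 120 * n ^ 2 * d ^ 2 + 200 * n * d ^ 3
      + 155 * d ^ 4 = 0 → n = 0 ∧ d = 0 := by decide
  have h3 := key _ _ (by simpa using congrArg (Int.cast : ℤ → ZMod 3) hZ)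
  obtain ⟨a, b, hab⟩ := hco
  have h1 := congrArg (Int.cast : ℤ → ZMod 3) hab
  push_cast at h1
  rw [h3.1, show (((t.den : ℕ) : ZMod 3)) = 0 by simpa using h3.2, mul_zero, mul_zero,
    add_zero] at h1
  exact absurd h1 (by decide)

/-- A rational root of `X⁴ + X³ + 11X² + 41X + 101`: none. -/
lemma quartic_sixteen_ne_zero (t : ℚ) : t ^ 4 + t ^ 3 + 11 * t ^ 2 + 41 * t + 101 ≠ 0 := by
  intro h
  have hd : (t.den : ℚ) ≠ 0 := by exact_mod_cast t.den_ne_zero
  have hco : IsCoprime t.num (t.den : ℤ) := Int.isCoprime_iff_gcd_eq_one.mpr t.reduced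
  rw [← Rat.num_div_den t] at h
  field_simp at h
  have hZ : t.num ^ 4 + t.num ^ 3 * (t.den : ℤ) + 11 * t.num ^ 2 * (t.den : ℤ) ^ 2
      + 41 * t.num * (t.den : ℤ) ^ 3 + 101 * (t.den : ℤ) ^ 4 = 0 := by
    have h' : ((t.num ^ 4 + t.num ^ 3 * (t.den : ℤ) + 11 * t.num ^ 2 * (t.den : ℤ) ^ 2
        + 41 * t.num * (t.den : ℤ) ^ 3 + 101 * (t.den : ℤ) ^ 4 : ℤ) : ℚ) = 0 := by
      push_cast
      linear_combination h
    exact_mod_cast h'
  have key : ∀ n d : ZMod 2, n ^ 4 + n ^ 3 * d + 11 * n ^ 2 * d ^ 2 + 41 * n * d ^ 3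
      + 101 * d ^ 4 = 0 → n = 0 ∧ d = 0 := by decide
  have h3 := key _ _ (by simpa using congrArg (Int.cast : ℤ → ZMod 2) hZ)
  obtain ⟨a, b, hab⟩ := hco
  have h1 := congrArg (Int.cast : ℤ → ZMod 2) hab
  push_cast at h1
  rw [h3.1, show (((t.den : ℕ) : ZMod 2)) = 0 by simpa using h3.2, mul_zero, mul_zero,
    add_zero] at h1
  exact absurd h1 (by decide)

/-- A twisted point outside `⟨T⟩` lies over one of two rational values of `V`. -/
lemma invV_twisted {R : (E11⁄Qbar).Point} (hR : IsTwisted R) {x y : Qbar} {h : OnE x y}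
    (hRxy : R = pt x y h) (hx0 : x ≠ 0) (hx1 : x ≠ 1) : invV x = 5 ∨ invV x = 16 := by
  have := Gal.isGalois_rat_qbar
  obtain ⟨X₀, hX⟩ := (InfiniteGalois.mem_range_algebraMap_iff_fixed (invV x)).mpr
      fun σ : AbsGal => by
    obtain ⟨m, hm⟩ := hR σ
    rw [hRxy, smul_pt, ← hRxy] at hm
    have := (invV_translate hRxy hm.symm hx0 hx1).2.2
    exact (invV_map (σ : Qbar →+* Qbar) x).trans this
  rcases five_nsmul_twisted hR with hT | ⟨hT, h5⟩
  · rw [hRxy, isTMul_iff_x] at hT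
    tauto
  obtain ⟨e, u, he, h5e⟩ := exists_pt h5
  rw [h5e, isTMul_iff_x] at hT
  rw [hRxy] at h5e
  have hkey := five_nsmul_invV h he hx0 hx1 h5e
  rw [← hX, ← hpol_map (algebraMap ℚ Qbar), ← Apol_map (algebraMap ℚ Qbar)] at hkey
  rw [← hX]
  rcases hT with rfl | rfl
  · rw [zero_mul, eq_comm, map_eq_zero] at hkey
    have : (X₀ - 5) * (X₀ ^ 4 + 15 * X₀ ^ 3 + 120 * X₀ ^ 2 + 200 * X₀ + 155) = 0 := by
      simp only [Apol, Ahom] at hkey
      linear_combination hkey
    left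
    rw [sub_eq_zero.mp ((mul_eq_zero.mp this).resolve_right (quartic_five_ne_zero _)), map_ofNat]
  · rw [one_mul, ← map_pow] at hkey
    have hkey' := (algebraMap ℚ Qbar).injective hkey
    have : (X₀ - 16) * (X₀ ^ 4 + X₀ ^ 3 + 11 * X₀ ^ 2 + 41 * X₀ + 101) = 0 := by
      simp only [Apol, Ahom, hpol, hhom] at hkey'
      linear_combination -hkey'
    right
    rw [sub_eq_zero.mp ((mul_eq_zero.mp this).resolve_right (quartic_sixteen_ne_zero _)), map_ofNat]

variable {A : ValuationSubring Qbar}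

/-- A polynomial expression with integer coefficients in an element of `A` lies in `A`. -/
lemma val_aeval_le {x : Qbar} (hx : A.valuation x ≤ 1) (p : ℤ[X]) :
    A.valuation (aeval x p) ≤ 1 := by
  induction p using Polynomial.induction_on' with
  | add p q hp hq => rw [_root_.map_add]; exact val_add_le hp hq
  | monomial k a =>
    rw [aeval_monomial, show algebraMap ℤ Qbar a = (a : Qbar) from eq_intCast _ a]
    exact val_mul_le (val_intCast_le a) (val_pow_le hx k)

lemma intPoly_le {x t : Qbar} (hx : A.valuation x ≤ 1) (p : ℤ[X]) (ht : aeval x p = t) :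
    A.valuation t ≤ 1 :=
  ht ▸ val_aeval_le hx p

/-- The residual discriminant factor, in the coordinates of 11a3. -/
noncomputable def discG (b c : Qbar) : Qbar :=
  16 * b ^ 2 - b * (8 * c ^ 2 + 20 * c - 1) - c * (1 - c) ^ 3

lemma tate_Δ (b c : Qbar) : (tate b c).Δ = b ^ 3 * discG b c := by
  simp only [tate, discG, WeierstrassCurve.Δ, WeierstrassCurve.b₂, WeierstrassCurve.b₄,
    WeierstrassCurve.b₆, WeierstrassCurve.b₈]
  ring

/-- At a place over `2` the Tate normal form of a twisted point has integral `c₄` and unit or zero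
discriminant. -/
theorem tate_val_two (hA : A.LiesOverPrime 2) {R : (E11⁄Qbar).Point} (hR : IsTwisted R)
    {x y : Qbar} {h : OnE x y} (hRxy : R = pt x y h) (hx0 : x ≠ 0) (hx1 : x ≠ 1) :
    A.valuation (tate (x * (x - 1) * (x + y - 1)) ((y - 1) * (x + y - 1) / x)).c₄ ≤ 1 ∧
    ((tate (x * (x - 1) * (x + y - 1)) ((y - 1) * (x + y - 1) / x)).Δ = 0 ∨
      A.valuation (tate (x * (x - 1) * (x + y - 1)) ((y - 1) * (x + y - 1) / x)).Δ = 1) := by
  have h2 : Nat.Prime 2 := Nat.prime_two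
  have hi : ∀ n : ℤ, A.valuation (n : Qbar) ≤ 1 := val_intCast_le
  obtain ⟨n, hn, hV⟩ : ∃ n : ℤ, (n = 5 ∨ n = 16) ∧ invV x = (n : Qbar) := by
    rcases invV_twisted hR hRxy hx0 hx1 with hV | hV
    · exact ⟨5, Or.inl rfl, by simpa using hV⟩
    · exact ⟨16, Or.inr rfl, by simpa using hV⟩
  have hQ : x ^ 5 + (-2 - (n : Qbar)) * x ^ 4 + (3 + 2 * (n : Qbar)) * x ^ 3 + (-(n : Qbar)) * x ^ 2
      + (-2) * x + 1 = 0 := by
    rw [invV, div_eq_iff (denV_ne_zero hx0 hx1)] at hV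
    simp only [numV, denV] at hV
    linear_combination hV
  have hxA : A.valuation x ≤ 1 := by
    refine (A.valuation_le_one_iff _).mpr (Gal.mem_of_isIntegral A
      ⟨X ^ 5 + (C (-2 - n) * X ^ 4 + C (3 + 2 * n) * X ^ 3 + C (-n) * X ^ 2 + C (-2) * X + C 1),
        monic_X_pow_add (by compute_degree!), ?_⟩)
    rw [← aeval_def]
    simp only [_root_.map_add, _root_.map_mul, _root_.map_pow, aeval_X, aeval_C]
    simp only [algebraMap_int_eq, eq_intCast, Int.cast_sub,
      Int.cast_neg, Int.cast_ofNat, Int.cast_one]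
    linear_combination hQ
  have unit_of : ∀ {t r : Qbar}, A.valuation t ≤ 1 → A.valuation r ≤ 1 → A.valuation (t * r) = 1 →
      A.valuation t = 1 := by
    intro t r ht hr htr
    refine ht.antisymm (not_lt.mp fun hlt => ?_)
    exact (val_mul_lt_left hlt hr).ne htr
  have one_v : A.valuation (1 : Qbar) ≤ 1 := A.valuation.map_one.le
  have hx_unit : A.valuation x = 1 := by
    refine unit_of (r := -(x ^ 4 + ((-2 - n : ℤ) : Qbar) * x ^ 3 + ((3 + 2 * n : ℤ) : Qbar) * x ^ 2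
      + ((-n : ℤ) : Qbar) * x + ((-2 : ℤ) : Qbar))) hxA ?_ ?_
    · rw [Valuation.map_neg]
      exact val_add_le (val_add_le (val_add_le (val_add_le (val_pow_le hxA 4)
        (val_mul_le (hi _) (val_pow_le hxA 3))) (val_mul_le (hi _) (val_pow_le hxA 2)))
        (val_mul_le (hi _) hxA)) (hi _)
    · rw [show x * -(x ^ 4 + ((-2 - n : ℤ) : Qbar) * x ^ 3 + ((3 + 2 * n : ℤ) : Qbar) * x ^ 2
        + ((-n : ℤ) : Qbar) * x + ((-2 : ℤ) : Qbar)) = 1 by push_cast; linear_combination -hQ,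
        map_one]
  have hx1A : A.valuation (x - 1) ≤ 1 := val_sub_le hxA one_v
  have hx1_unit : A.valuation (x - 1) = 1 := by
    refine unit_of (r := -(x ^ 3 * (x - 1) + (x - 1) + ((2 : ℤ) : Qbar) * x ^ 2 + (x + 1)
      - (n : Qbar) * x ^ 2 * (x - 1))) hx1A ?_ ?_
    · rw [Valuation.map_neg]
      exact val_sub_le
        (val_add_le (val_add_le (val_add_le (val_mul_le (val_pow_le hxA 3) hx1A) hx1A)
        (val_mul_le (hi _) (val_pow_le hxA 2))) (val_add_le hxA one_v))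
        (val_mul_le (val_mul_le (hi _) (val_pow_le hxA 2)) hx1A)
    · rw [show (x - 1) * -(x ^ 3 * (x - 1) + (x - 1) + ((2 : ℤ) : Qbar) * x ^ 2 + (x + 1)
        - (n : Qbar) * x ^ 2 * (x - 1)) = 1 by push_cast; linear_combination -hQ, map_one]
  have hE : y * (y - 1) = x ^ 2 * (x - 1) := by
    have h' := h
    unfold OnE at h'
    linear_combination h'
  have hyv : A.valuation (y * (y - 1)) = 1 := by
    rw [hE, map_mul, map_pow, hx_unit, hx1_unit, one_pow, one_mul]
  have hyA : A.valuation y ≤ 1 := by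
    by_contra hc
    push Not at hc
    have e : A.valuation (y - 1) = A.valuation y :=
      A.valuation.map_sub_eq_of_lt_left (by rwa [map_one])
    rw [map_mul, e] at hyv
    exact (one_lt_mul_of_lt_of_le' hc hc.le).ne' hyv
  have hy1A : A.valuation (y - 1) ≤ 1 := val_sub_le hyA one_v
  have hy1_unit : A.valuation (y - 1) = 1 := unit_of hy1A hyA (by rwa [mul_comm])
  have hw_le : A.valuation (x + y - 1) ≤ 1 := val_sub_le (val_add_le hxA hyA) one_v
  have hw_unit : A.valuation (x + y - 1) = 1 := by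
    refine unit_of hw_le (r := x - y) (val_sub_le hxA hyA) ?_
    rw [w_mul_neg h, Valuation.map_neg, map_mul, map_pow, hx_unit, hx1_unit, one_pow, one_mul]
  set b := x * (x - 1) * (x + y - 1) with hb
  set c := (y - 1) * (x + y - 1) / x with hc
  have hb1 : A.valuation b = 1 := by
    rw [hb, map_mul, map_mul, hx_unit, hx1_unit, hw_unit, one_mul, one_mul]
  have hc1 : A.valuation c = 1 := by
    rw [hc, map_div₀, map_mul, hy1_unit, hw_unit, hx_unit, one_mul, div_one]
  refine ⟨?_, ?_⟩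
  · have e : (tate b c).c₄ = ((1 - c) ^ 2 - ((4 : ℤ) : Qbar) * b) ^ 2
        + ((24 : ℤ) : Qbar) * b * (1 - c) := by
      simp only [tate, WeierstrassCurve.c₄, WeierstrassCurve.b₂, WeierstrassCurve.b₄]
      push_cast
      ring
    rw [e]
    exact val_add_le (val_pow_le (val_sub_le (val_pow_le (val_sub_le one_v hc1.le) 2)
      (val_mul_le (hi _) hb1.le)) 2)
      (val_mul_le (val_mul_le (hi _) hb1.le) (val_sub_le one_v hc1.le))
  rw [tate_Δ]
  rcases eq_or_ne (discG b c) 0 with hG | hG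
  · exact Or.inl (by rw [hG, mul_zero])
  right
  rw [map_mul, map_pow, hb1, one_pow, one_mul]
  -- `x⁴ G = g₀ + g₁ y`
  obtain ⟨g₀, hg₀⟩ : ∃ g, g = ((1) + (-7) * x ^ 1 + (11) * x ^ 2 + (18) * x ^ 3 + (-79) * x ^ 4 +
      (88) * x ^ 5 + (9) * x ^ 6 + (-121) * x ^ 7 + (137) * x ^ 8 + (-78) * x ^ 9 + (26) * x ^ 10 +
      (-6) * x ^ 11 + (1) * x ^ 12) := ⟨_, rfl⟩
  obtain ⟨g₁, hg₁⟩ : ∃ g, g = ((-1) + (7) * x ^ 1 + (-12) * x ^ 2 + (-10) * x ^ 3 + (59) * x ^ 4 +
      (-77) * x ^ 5 + (31) * x ^ 6 + (26) * x ^ 7 + (-39) * x ^ 8 + (20) * x ^ 9 + (-4) * x ^ 10) :=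
    ⟨_, rfl⟩
  have hlin : x ^ 4 * discG b c = g₀ + g₁ * y := by
    rw [hg₀, hg₁, hb, hc, discG]
    have h' := h
    unfold OnE at h'
    field_simp
    linear_combination ((7) + (-21) * y + (35) * y ^ 2 + (-35) * y ^ 3 + (21) * y ^ 4 +
      (-7) * y ^ 5 + (1) * y ^ 6 + (-39) * x + (90) * x * y + (-110) * x * y ^ 2 +
      (75) * x * y ^ 3 + (-27) * x * y ^ 4 + (4) * x * y ^ 5 + (60) * x ^ 2 + (-103) * x ^ 2 * y +
      (84) * x ^ 2 * y ^ 2 + (-33) * x ^ 2 * y ^ 3 + (5) * x ^ 2 * y ^ 4 + (-15) * x ^ 3 +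
      (33) * x ^ 3 * y + (-19) * x ^ 3 * y ^ 2 + (2) * x ^ 3 * y ^ 3 + (1) * x ^ 3 * y ^ 4 +
      (-38) * x ^ 4 + (-26) * x ^ 4 * y + (29) * x ^ 4 * y ^ 2 + (-4) * x ^ 4 * y ^ 3 +
      (32) * x ^ 5 + (45) * x ^ 5 * y + (-20) * x ^ 5 * y ^ 2 + (-9) * x ^ 6 + (-17) * x ^ 6 * y +
      (1) * x ^ 6 * y ^ 2 + (5) * x ^ 7 + (-4) * x ^ 7 * y + (-5) * x ^ 8 + (1) * x ^ 9) * h'
  have hGv : A.valuation (discG b c) = A.valuation (g₀ + g₁ * y) := by
    rw [← hlin, map_mul, map_pow, hx_unit, one_pow, one_mul]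
  rw [hGv]
  have hprod : (g₀ + g₁ * y) * (g₀ + g₁ * (1 - y)) =
      g₀ ^ 2 + g₀ * g₁ - g₁ ^ 2 * (x ^ 3 - x ^ 2) := by
    have h' := h
    unfold OnE at h'
    linear_combination -(g₁ ^ 2) * h'
  have htwo : A.valuation (2 : Qbar) < 1 := by
    simpa using val_intCast_lt (A := A) (L := Qbar) h2 hA (n := 2) (by norm_num)
  have hg₁A : A.valuation g₁ ≤ 1 := by
    rw [hg₁]
    exact intPoly_le hxA (C (-1) + C (7) * X ^ 1 + C (-12) * X ^ 2 + C (-10) * X ^ 3 +
      C (59) * X ^ 4 + C (-77) * X ^ 5 + C (31) * X ^ 6 + C (26) * X ^ 7 + C (-39) * X ^ 8 +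
      C (20) * X ^ 9 + C (-4) * X ^ 10 : ℤ[X])
      (by simp only [_root_.map_add, _root_.map_mul, _root_.map_pow, aeval_X, aeval_C];
          simp only [eq_intCast, Int.cast_ofNat, Int.cast_neg, Int.cast_one])
  have hg₀A : A.valuation g₀ ≤ 1 := by
    rw [hg₀]
    exact intPoly_le hxA (C (1) + C (-7) * X ^ 1 + C (11) * X ^ 2 + C (18) * X ^ 3 +
      C (-79) * X ^ 4 + C (88) * X ^ 5 + C (9) * X ^ 6 + C (-121) * X ^ 7 + C (137) * X ^ 8 +
      C (-78) * X ^ 9 + C (26) * X ^ 10 + C (-6) * X ^ 11 + C (1) * X ^ 12 : ℤ[X])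
      (by simp only [_root_.map_add, _root_.map_mul, _root_.map_pow, aeval_X, aeval_C];
          simp only [eq_intCast, Int.cast_ofNat, Int.cast_neg, Int.cast_one])
  have odd_unit : ∀ {a g t : Qbar}, A.valuation a ≤ 1 → A.valuation g ≤ 1 → A.valuation t ≤ 1 →
      a * g = 1 + 2 * t → A.valuation g = 1 := by
    intro a g t ha hg ht he
    refine hg.antisymm (not_lt.mp fun hlt => ?_)
    have h1 := val_mul_lt_right ha hlt
    rw [he] at h1
    have := val_sub_lt h1 (val_mul_lt_left htwo ht)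
    rw [add_sub_cancel_right, map_one] at this
    exact lt_irrefl _ this
  rcases hn with rfl | rfl
  · have hN : A.valuation (g₀ ^ 2 + g₀ * g₁ - g₁ ^ 2 * (x ^ 3 - x ^ 2)) = 1 := by
      refine odd_unit (a := ((1) + (1) * x ^ 3 + (1) * x ^ 4 : Qbar)) (t := ((95853553796) +
        (-169039766853) * x ^ 1 + (-519242103294) * x ^ 2 + (1219159963912) * x ^ 3 +
        (-478522850790) * x ^ 4 + (-688281870137) * x ^ 5 + (604064306815) * x ^ 6 +
        (717969772383) * x ^ 7 + (-405336637728) * x ^ 8 : Qbar))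
        (by exact intPoly_le hxA (C (1) + C (1) * X ^ 3 + C (1) * X ^ 4 : ℤ[X])
              (by simp only [_root_.map_add, _root_.map_mul, _root_.map_pow, aeval_X, aeval_C];
                  simp only [eq_intCast, Int.cast_one])) ?_
        (by exact intPoly_le hxA (C (95853553796) + C (-169039766853) * X ^ 1 +
          C (-519242103294) * X ^ 2 + C (1219159963912) * X ^ 3 + C (-478522850790) * X ^ 4 +
          C (-688281870137) * X ^ 5 + C (604064306815) * X ^ 6 + C (717969772383) * X ^ 7 +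
          C (-405336637728) * X ^ 8 : ℤ[X])
              (by simp only [_root_.map_add, _root_.map_mul, _root_.map_pow, aeval_X, aeval_C];
                  simp only [eq_intCast, Int.cast_ofNat, Int.cast_neg])) ?_
      · exact val_sub_le (val_add_le (val_pow_le hg₀A 2) (val_mul_le hg₀A hg₁A))
          (val_mul_le (val_pow_le hg₁A 2) (val_sub_le (val_pow_le hxA 3) (val_pow_le hxA 2)))
      · rw [hg₀, hg₁]
        push_cast at hQ
        linear_combination ((((1) + (1) * x ^ 3 + (1) * x ^ 4 : Qbar)) * ((-191707107592) +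
          (-45334681480) * x ^ 1 + (-10720694336) * x ^ 2 + (-2535217597) * x ^ 3 +
          (-599525322) * x ^ 4 + (-141775029) * x ^ 5 + (-33526779) * x ^ 6 + (-7928360) * x ^ 7 +
          (-1874895) * x ^ 8 + (-443343) * x ^ 9 + (-104917) * x ^ 10 + (-24606) * x ^ 11 +
          (-6258) * x ^ 12 + (-769) * x ^ 13 + (-1022) * x ^ 14 + (474) * x ^ 15 + (-318) * x ^ 16 +
          (100) * x ^ 17 + (-21) * x ^ 18 + (1) * x ^ 19) - ((1) + (1) * x ^ 2)) * hQ
    rw [← hprod] at hN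
    exact unit_of (val_add_le hg₀A (val_mul_le hg₁A hyA))
      (val_add_le hg₀A (val_mul_le hg₁A (val_sub_le one_v hyA))) hN
  · have hG1 : A.valuation g₁ = 1 := by
      refine odd_unit (a := ((1) + (1) * x ^ 4 : Qbar)) (t := ((1665360) + (-3225694) * x ^ 1 +
        (-26849207) * x ^ 2 + (56594408) * x ^ 3 + (-24742045) * x ^ 4 + (-3225710) * x ^ 5 +
        (-26849180) * x ^ 6 + (56594389) * x ^ 7 + (-26407412) * x ^ 8 : Qbar))
        (by exact intPoly_le hxA (C (1) + C (1) * X ^ 4 : ℤ[X])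
              (by simp only [_root_.map_add, _root_.map_mul, _root_.map_pow, aeval_X, aeval_C];
                  simp only [eq_intCast, Int.cast_one])) hg₁A
        (by exact intPoly_le hxA (C (1665360) + C (-3225694) * X ^ 1 + C (-26849207) * X ^ 2 +
          C (56594408) * X ^ 3 + C (-24742045) * X ^ 4 + C (-3225710) * X ^ 5 + C (-26849180) *
          X ^ 6 + C (56594389) * X ^ 7 + C (-26407412) * X ^ 8 : ℤ[X])
              (by simp only [_root_.map_add, _root_.map_mul, _root_.map_pow, aeval_X, aeval_C];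
                  simp only [eq_intCast, Int.cast_ofNat, Int.cast_neg])) ?_
      rw [hg₁]
      push_cast at hQ
      linear_combination ((((1) + (1) * x ^ 4 : Qbar)) * ((-3330721) + (-210048) * x ^ 1 +
        (-13248) * x ^ 2 + (-835) * x ^ 3 + (-52) * x ^ 4 + (-4) * x ^ 5) - ((1) + (1) * x ^ 1 +
        (1) * x ^ 3)) * hQ
    have hz : (g₀ + g₁ * y) * (g₀ + g₁ * (1 - y)) = 0 := by
      rw [hprod, hg₀, hg₁]
      push_cast at hQ
      linear_combination ((1) * x ^ 9 + (-10) * x ^ 10 + (45) * x ^ 11 + (-120) * x ^ 12 +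
        (210) * x ^ 13 + (-252) * x ^ 14 + (210) * x ^ 15 + (-120) * x ^ 16 + (45) * x ^ 17 +
        (-10) * x ^ 18 + (1) * x ^ 19) * hQ
    rcases mul_eq_zero.mp hz with hz | hz
    · exfalso
      rw [← hlin] at hz
      exact hG ((mul_eq_zero.mp hz).resolve_left (pow_ne_zero 4 hx0))
    · rw [show g₀ + g₁ * y = g₁ * (2 * y - 1) by linear_combination hz, map_mul, hG1, one_mul,
        show 2 * y - 1 = -(1 - 2 * y) by ring, Valuation.map_neg]
      exact A.valuation.map_one_sub_of_lt (val_mul_lt_left htwo hyA)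

end Fermat.Agent.Eleven
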