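import Fermat.Agent.EC.Eleven.Node
import Fermat.Agent.EC.Torsion.Main

/-!
The invariant `V = Σ_i x(R + iT)` of translation by `T` and the factorisation of multiplication
by `5` through it: `x(5R) = A(V)/h(V)²`.
-/

set_option autoImplicit false

open WeierstrassCurve Polynomial
open scoped WeierstrassCurve.Affine

namespace Fermat.Agent.Eleven

variable {K : Type*} [Field K] [Algebra ℚ K]

/-- The numerator of the invariant function. -/
def numV (x : K) : K := x ^ 3 * (x - 1) ^ 2 + (x - 1) ^ 2 + 2 * x ^ 2 * (x - 1) + x ^ 2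

/-- Its denominator. -/
def denV (x : K) : K := x ^ 2 * (x - 1) ^ 2

/-- The invariant function. -/
def invV (x : K) : K := numV x / denV x

/-- The numerator of the dual isogeny, homogenised. -/
def Ahom (N D : K) : K :=
  N ^ 5 + 10 * N ^ 4 * D + 45 * N ^ 3 * D ^ 2 - 400 * N ^ 2 * D ^ 3 - 845 * N * D ^ 4 - 775 * D ^ 5

/-- The kernel polynomial of the dual isogeny, homogenised. -/
def hhom (N D : K) : K := 5 * N ^ 2 + 5 * N * D - 29 * D ^ 2

/-- The numerator of the dual isogeny. -/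
def Apol (X : K) : K := Ahom X 1

/-- The kernel polynomial of the dual isogeny. -/
def hpol (X : K) : K := hhom X 1

omit [Algebra ℚ K] in
lemma Ahom_eq {N D : K} (hD : D ≠ 0) : Ahom N D = D ^ 5 * Apol (N / D) := by
  simp only [Apol, Ahom]
  field_simp

omit [Algebra ℚ K] in
lemma hhom_eq {N D : K} (hD : D ≠ 0) : hhom N D = D ^ 2 * hpol (N / D) := by
  simp only [hpol, hhom]
  field_simp

omit [Algebra ℚ K] in
lemma denV_ne_zero {x : K} (hx0 : x ≠ 0) (hx1 : x ≠ 1) : denV x ≠ 0 :=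
  mul_ne_zero (pow_ne_zero 2 hx0) (pow_ne_zero 2 (sub_ne_zero.mpr hx1))

lemma eval_preΨ'_five (x : K) :
    ((E11⁄K).preΨ' 5).eval x = x * (x - 1) * hhom (numV x) (denV x) := by
  rw [show (5 : ℕ) = 2 * (0 + 2) + 1 from rfl, preΨ'_odd]
  simp only [zero_add, preΨ'_one, preΨ'_two, preΨ'_three, preΨ'_four, if_pos Even.zero,
    eval_sub, eval_mul, eval_pow, one_mul, mul_one, WeierstrassCurve.Ψ₂Sq,
    WeierstrassCurve.Ψ₃, WeierstrassCurve.preΨ₄, eval_add, eval_C, eval_X, eval_ofNat,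
    WeierstrassCurve.b₂, WeierstrassCurve.b₄, WeierstrassCurve.b₆, WeierstrassCurve.b₈,
    a₁_eq, a₂_eq, a₃_eq, a₄_eq, a₆_eq, one_pow]
  simp only [hhom, numV, denV]
  ring

lemma eval_ΨSq_five (x : K) :
    ((E11⁄K).ΨSq 5).eval x = (x * (x - 1) * hhom (numV x) (denV x)) ^ 2 := by
  rw [show (5 : ℤ) = ((5 : ℕ) : ℤ) from rfl, ΨSq_ofNat, if_neg (by decide), mul_one, eval_pow,
    eval_preΨ'_five]

lemma eval_preΨ'_six (x : K) :
    ((E11⁄K).preΨ' 6).eval x = ((E11⁄K).Ψ₃).eval x *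
      (((E11⁄K).preΨ' 5).eval x - ((E11⁄K).preΨ₄).eval x ^ 2) := by
  rw [show (6 : ℕ) = 2 * (0 + 3) from rfl, preΨ'_even]
  simp only [zero_add, preΨ'_one, preΨ'_two, preΨ'_three, preΨ'_four, eval_sub, eval_mul,
    eval_pow, one_mul, one_pow]
  ring

lemma eval_Φ_five (x : K) : ((E11⁄K).Φ 5).eval x = Ahom (numV x) (denV x) := by
  rw [show (5 : ℤ) = ((4 : ℕ) : ℤ) + 1 from rfl, Φ_ofNat, if_pos (by decide : Even 4),
    if_pos (by decide : Even 4), mul_one]
  simp only [Nat.reduceAdd, eval_sub, eval_mul, eval_pow, eval_X, eval_preΨ'_five,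
    eval_preΨ'_six]
  simp only [preΨ'_four,
    eval_mul, eval_pow, WeierstrassCurve.Ψ₂Sq,
    WeierstrassCurve.Ψ₃, WeierstrassCurve.preΨ₄, eval_add, eval_C, eval_X, eval_ofNat,
    WeierstrassCurve.b₂, WeierstrassCurve.b₄, WeierstrassCurve.b₆, WeierstrassCurve.b₈,
    a₁_eq, a₂_eq, a₃_eq, a₄_eq, a₆_eq]
  simp only [Ahom, hhom, numV, denV]
  ring

section Group

variable [DecidableEq K]

omit [DecidableEq K] in
lemma isElliptic_E11 : (E11⁄K).IsElliptic :=
  ⟨by rw [Δ_eq]; exact isUnit_iff_ne_zero.mpr (neg_ne_zero.mpr eleven_ne_zero)⟩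

lemma five_nsmul_eq_zero_iff {x y : K} (h : OnE x y) :
    (5 : ℕ) • pt x y h = 0 ↔ x * (x - 1) * hhom (numV x) (denV x) = 0 := by
  have := isElliptic_E11 (K := K)
  rw [← eval_preΨ'_five]
  exact EC.Torsion.nsmul_some_eq_zero_iff_of_odd (by decide) (nonsingular_of_onE h)

lemma five_nsmul_x {x y x' y' : K} (h : OnE x y) (h' : OnE x' y')
    (he : (5 : ℕ) • pt x y h = pt x' y' h') :
    x' * (x * (x - 1) * hhom (numV x) (denV x)) ^ 2 = Ahom (numV x) (denV x) := by
  have := isElliptic_E11 (K := K)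
  rw [← eval_ΨSq_five, ← eval_Φ_five]
  exact EC.Torsion.mul_eval_ΨSq_eq_eval_Φ 5 (nonsingular_of_onE h) (nonsingular_of_onE h')
    (by rw [show (5 : ℤ) = ((5 : ℕ) : ℤ) from rfl, natCast_zsmul]; exact he)

/-- `x(5R) · h(V)² = A(V)`. -/
lemma five_nsmul_invV {x y x' y' : K} (h : OnE x y) (h' : OnE x' y') (hx0 : x ≠ 0) (hx1 : x ≠ 1)
    (he : (5 : ℕ) • pt x y h = pt x' y' h') :
    x' * hpol (invV x) ^ 2 = Apol (invV x) := by
  have hD := denV_ne_zero hx0 hx1
  have h5 := five_nsmul_x h h' he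
  rw [Ahom_eq hD, hhom_eq hD] at h5
  apply mul_left_cancel₀ (pow_ne_zero 5 hD)
  rw [invV]
  refine Eq.trans ?_ h5
  rw [show (denV x : K) = x ^ 2 * (x - 1) ^ 2 from rfl]
  ring

lemma five_nsmul_ne_zero {x y : K} (h : OnE x y) (hx0 : x ≠ 0) (hx1 : x ≠ 1)
    (hh : hpol (invV x) ≠ 0) : (5 : ℕ) • pt x y h ≠ 0 := by
  rw [Ne, five_nsmul_eq_zero_iff]
  have hD := denV_ne_zero hx0 hx1
  rw [hhom_eq hD]
  exact mul_ne_zero (mul_ne_zero hx0 (sub_ne_zero.mpr hx1)) (mul_ne_zero (pow_ne_zero 2 hD) hh)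

/-- The five abscissae of the translates of `(x, y)`. -/
lemma orbit_xs {x y : K} (h : OnE x y) (hx0 : x ≠ 0) (hx1 : x ≠ 1) :
    xco (pt x y h + (1 : ℕ) • T K) = y / x ^ 2 ∧
    xco (pt x y h + (2 : ℕ) • T K) = ((y - 1) / (x - 1)) ^ 2 - x ∧
    xco (pt x y h + (3 : ℕ) • T K) = (y / (x - 1)) ^ 2 - x ∧
    xco (pt x y h + (4 : ℕ) • T K) = ((y - 1) / x) ^ 2 + 1 - x := by
  refine ⟨?_, ?_, ?_, ?_⟩
  · rw [one_nsmul, pt_add_T h hx0 (onE_add_T h hx0), xco_pt]
  all_goals
    first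
      | rw [two_T] | rw [three_T] | rw [four_T]
    first
      | (rw [pt, pt, Affine.Point.add_of_X_ne hx1, xco]
         simp only [Affine.addX, Affine.slope_of_X_ne hx1, a₁_eq, a₂_eq]
         ring)
      | (rw [pt, pt, Affine.Point.add_of_X_ne hx0, xco]
         simp only [Affine.addX, Affine.slope_of_X_ne hx0, a₁_eq, a₂_eq]
         ring)

/-- The sum of the abscissae over the orbit is `V + 2`. -/
lemma orbit_sum {R : (E11⁄K).Point} {x y : K} {h : OnE x y} (hR : R = pt x y h) (hx0 : x ≠ 0)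
    (hx1 : x ≠ 1) : ∑ i : ZMod 5, xco (R + i.val • T K) = invV x + 2 := by
  subst hR
  obtain ⟨h1, h2, h3, h4⟩ := orbit_xs h hx0 hx1
  change ∑ i : Fin 5, xco (pt x y h + i.val • T K) = _
  simp only [Fin.sum_univ_five, Fin.val_zero, Fin.val_one, Fin.val_two, zero_nsmul, add_zero,
    xco_pt]
  rw [h1, h2, show ((3 : Fin 5) : ℕ) = 3 from rfl, show ((4 : Fin 5) : ℕ) = 4 from rfl, h3, h4,
    invV, numV, denV]
  have hx1' : x - 1 ≠ 0 := sub_ne_zero.mpr hx1
  unfold OnE at h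
  field_simp
  linear_combination (2 * x ^ 2 + (x - 1) ^ 2) * h

/-- Translation by a multiple of `T` preserves `V`. -/
lemma invV_translate {R : (E11⁄K).Point} {x y x' y' : K} {h : OnE x y} {h' : OnE x' y'} {m : ℕ}
    (hR : R = pt x y h) (hR' : R + m • T K = pt x' y' h') (hx0 : x ≠ 0) (hx1 : x ≠ 1) :
    x' ≠ 0 ∧ x' ≠ 1 ∧ invV x' = invV x := by
  have hns : ¬ IsTMul (pt x' y' h') := by
    rintro ⟨i, hi⟩
    have : IsTMul (pt x y h) := by
      refine ⟨i + 4 * m, ?_⟩
      rw [← hR, add_nsmul, hi, ← hR', add_assoc, ← add_nsmul, show m + 4 * m = 5 * m by ring,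
        mul_nsmul, five_T, nsmul_zero, add_zero]
    rw [isTMul_iff_x] at this
    tauto
  rw [isTMul_iff_x] at hns
  push Not at hns
  refine ⟨hns.1, hns.2, ?_⟩
  have e1 := orbit_sum (R := R) hR hx0 hx1
  have e2 := orbit_sum (R := R + m • T K) hR' hns.1 hns.2
  have : ∑ i : ZMod 5, xco (R + m • T K + i.val • T K) = ∑ i : ZMod 5, xco (R + i.val • T K) := by
    refine Fintype.sum_equiv (Equiv.addLeft (m : ZMod 5)) _ _ fun i => ?_
    rw [add_assoc, ← add_nsmul]
    congr 2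
    refine nsmul_T_eq_of_mod ?_
    simp only [Equiv.coe_addLeft, ZMod.val_add, ZMod.val_natCast, Nat.mod_mod, Nat.mod_add_mod]
  rw [this, e1] at e2
  exact (add_right_cancel e2).symm

/-- Different translates have different abscissae unless `10 • R = 0`. -/
lemma translate_xco_injective {R : (E11⁄K).Point} (hR : ¬ IsTMul R) (h10 : (10 : ℕ) • R ≠ 0) :
    Function.Injective fun i : ZMod 5 => xco (R + i.val • T K) := by
  intro i j hij
  have hne : ∀ i : ℕ, R + i • T K ≠ 0 := by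
    intro i h0
    refine hR ⟨4 * i, ?_⟩
    rw [eq_comm, eq_neg_of_add_eq_zero_left h0, neg_eq_iff_add_eq_zero, ← add_nsmul,
      show i + 4 * i = 5 * i by ring, mul_nsmul, five_T, nsmul_zero]
  obtain ⟨x, y, h, he⟩ := exists_pt (hne i.val)
  obtain ⟨x', y', h', he'⟩ := exists_pt (hne j.val)
  simp only [he, he', xco_pt] at hij
  rcases (Affine.Point.X_eq_iff (h₁ := nonsingular_of_onE h) (h₂ := nonsingular_of_onE h')).mp hij
    with hh | hh
  · change pt x y h = pt x' y' h' at hh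
    rw [← he, ← he'] at hh
    have hT := add_left_cancel hh
    by_contra hne'
    apply T_ne_zero (K := K)
    have : Fact (Nat.Prime 5) := ⟨by norm_num⟩
    obtain ⟨k, hk⟩ : ∃ k : ℕ, ((k * (i - j).val : ℕ) : ZMod 5) = 1 :=
      ⟨((i - j)⁻¹).val, by
        push_cast
        simp only [ZMod.natCast_rightInverse _]
        exact inv_mul_cancel₀ (sub_ne_zero.mpr hne')⟩
    have hd : (i - j).val • T K = 0 := by
      have : ((i - j).val + j.val) • T K = i.val • T K := by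
        refine nsmul_T_eq_of_mod ?_
        rw [← ZMod.val_add, sub_add_cancel, Nat.mod_eq_of_lt (ZMod.val_lt i)]
      rw [add_nsmul, hT] at this
      exact add_eq_right.mp this
    have := nsmul_T_eq_of_mod (K := K) (a := k * (i - j).val) (b := 1) (by
      have := congrArg ZMod.val hk
      rw [ZMod.val_natCast, ZMod.val_one] at this
      simpa using this)
    rw [one_nsmul, mul_comm, mul_nsmul, hd, nsmul_zero] at this
    exact this.symm
  · exfalso
    change pt x y h = -pt x' y' h' at hh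
    rw [← he, ← he', eq_neg_iff_add_eq_zero] at hh
    apply h10
    have h5 := congrArg (fun P : (E11⁄K).Point => (5 : ℕ) • P) hh
    simp only [nsmul_add, nsmul_zero, ← mul_nsmul, mul_nsmul', five_T, add_zero] at h5
    rw [show (10 : ℕ) = 5 + 5 from rfl, add_nsmul]
    exact h5

end Group

end Fermat.Agent.Eleven
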