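import Fermat.Agent.EC.Eleven.Isogeny

/-!
Descent by the isogeny of degree five: for a rational point `(x, y)` the value of
`f = xy + y - x²` is a fifth power, whence a rational point on the isogenous curve.
-/

set_option autoImplicit false

namespace Fermat.Agent.Eleven

/-- Coordinates of a rational point. -/
lemma exists_int_coords {x y : ℚ} (h : OnE x y) :
    ∃ u v w : ℤ, 0 < w ∧ IsCoprime u w ∧ x = u / w ^ 2 ∧ y = v / w ^ 3 ∧
      v ^ 2 - v * w ^ 3 = u ^ 3 - u ^ 2 * w ^ 2 := by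
  have hdpos : (0 : ℤ) < (x.den : ℤ) := by exact_mod_cast x.den_pos
  have hepos : (0 : ℤ) < (y.den : ℤ) := by exact_mod_cast y.den_pos
  have hnd : IsCoprime x.num (x.den : ℤ) := Int.isCoprime_iff_gcd_eq_one.mpr x.reduced
  have hme : IsCoprime y.num (y.den : ℤ) := Int.isCoprime_iff_gcd_eq_one.mpr y.reduced
  have hxe := Rat.num_div_den x
  have hye := Rat.num_div_den y
  have hxd0 : (x.den : ℚ) ≠ 0 := by exact_mod_cast x.den_ne_zero
  have hyd0 : (y.den : ℚ) ≠ 0 := by exact_mod_cast y.den_ne_zero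
  generalize x.num = n at *
  generalize y.num = m at *
  obtain ⟨d, hd⟩ : ∃ d : ℤ, (x.den : ℤ) = d := ⟨_, rfl⟩
  obtain ⟨e, he⟩ : ∃ e : ℤ, (y.den : ℤ) = e := ⟨_, rfl⟩
  have hdQ : (x.den : ℚ) = (d : ℚ) := by rw [← hd]; norm_num
  have heQ : (y.den : ℚ) = (e : ℚ) := by rw [← he]; norm_num
  rw [hd] at hdpos hnd
  rw [he] at hepos hme
  rw [hdQ] at hxe hxd0
  rw [heQ] at hye hyd0
  have key : m * (m - e) * d ^ 3 = n ^ 2 * (n - d) * e ^ 2 := by
    have h' := h
    unfold OnE at h'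
    rw [← hxe, ← hye] at h'
    field_simp at h'
    have : ((m * (m - e) * d ^ 3 : ℤ) : ℚ) = ((n ^ 2 * (n - d) * e ^ 2 : ℤ) : ℚ) := by
      push_cast
      linear_combination h'
    exact_mod_cast this
  have c1 : IsCoprime (m * (m - e)) (e ^ 2) :=
    (hme.mul_left (by simpa [sub_eq_add_neg] using hme.add_mul_right_left (-1))).pow_right
  have c2 : IsCoprime (n ^ 2 * (n - d)) (d ^ 3) :=
    ((hnd.pow_left).mul_left
      (by simpa [sub_eq_add_neg] using hnd.add_mul_right_left (-1))).pow_right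
  have h1 : e ^ 2 ∣ d ^ 3 := c1.symm.dvd_of_dvd_mul_left ⟨n ^ 2 * (n - d), by rw [key]; ring⟩
  have h2 : d ^ 3 ∣ e ^ 2 := c2.symm.dvd_of_dvd_mul_left ⟨m * (m - e), by rw [← key]; ring⟩
  have hed : e ^ 2 = d ^ 3 := Int.dvd_antisymm (by positivity) (by positivity) h1 h2
  obtain ⟨w, hw⟩ : d ∣ e := (Int.pow_dvd_pow_iff two_ne_zero).mp ⟨d, by rw [hed]; ring⟩
  have hdw : d = w ^ 2 := by
    have : d ^ 2 * (d - w ^ 2) = 0 := by rw [hw] at hed; linear_combination -hed
    rcases mul_eq_zero.mp this with h' | h'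
    · exact absurd (sq_eq_zero_iff.mp h') hdpos.ne'
    · linarith
  have hew : e = w ^ 3 := by rw [hw, hdw]; ring
  have hw0 : 0 < w := by
    rcases lt_trichotomy w 0 with h' | h' | h'
    · exact absurd hepos (by rw [hew]; exact not_lt.mpr (Odd.pow_nonpos_iff ⟨1, rfl⟩ |>.mpr h'.le))
    · exact absurd hdpos (by rw [hdw, h']; norm_num)
    · exact h'
  refine ⟨n, m, w, hw0, ?_, ?_, ?_, ?_⟩
  · rw [hdw, sq] at hnd
    exact hnd.of_mul_right_left
  · rw [← hxe, hdw]; push_cast; ring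
  · rw [← hye, hew]; push_cast; ring
  · rw [hdw, hew] at key
    exact mul_left_cancel₀ (pow_ne_zero 6 hw0.ne') (by linear_combination key)

/-- The function with divisor `5(T) - 5(O)` takes fifth power values. -/
lemma exists_fifth_root {x y : ℚ} (h : OnE x y) : ∃ z : ℚ, z ^ 5 = x * y + y - x ^ 2 := by
  obtain ⟨u, v, w, hw, hco, hx, hy, he⟩ := exists_int_coords h
  set F := u * v + v * w ^ 2 - u ^ 2 * w with hF
  set F' := u * (w ^ 3 - v) + (w ^ 3 - v) * w ^ 2 - u ^ 2 * w with hF'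
  have hprod : F * F' = (-u) ^ 5 := by
    rw [hF, hF']
    linear_combination -(u + w ^ 2) ^ 2 * he
  have hsum : F + F' = w * (u * w ^ 2 + w ^ 4 - 2 * u ^ 2) := by rw [hF, hF']; ring
  have hcop : IsCoprime F F' := by
    refine isCoprime_of_prime_dvd ?_ fun r hr h1 h2 => ?_
    · rintro ⟨hF0, hF0'⟩
      rw [hF0, hF0', mul_zero] at hprod
      have hu : u = 0 := by simpa using hprod.symm
      subst hu
      rw [hF0, hF0'] at hsum
      ring_nf at hsum
      exact pow_ne_zero 5 hw.ne' hsum.symm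
    · have hu : r ∣ u := (dvd_neg).mp (hr.dvd_of_dvd_pow (hprod ▸ dvd_mul_of_dvd_left h1 F'))
      have h5 : r ∣ w ^ 5 := by
        have hs : r ∣ F + F' := dvd_add h1 h2
        rw [hsum,
          show w * (u * w ^ 2 + w ^ 4 - 2 * u ^ 2) = w ^ 5 + u * (w ^ 3 - 2 * u * w) by ring]
          at hs
        exact (dvd_add_left (dvd_mul_of_dvd_left hu _)).mp hs
      exact hr.not_dvd_one (by
        obtain ⟨a, b, hab⟩ := hco
        rw [← hab]
        exact dvd_add (dvd_mul_of_dvd_right hu a) (dvd_mul_of_dvd_right (hr.dvd_of_dvd_pow h5) b))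
  obtain ⟨c, hc⟩ := Int.eq_pow_of_mul_eq_pow_odd_left hcop (by decide : Odd 5) hprod
  refine ⟨(c : ℚ) / w, ?_⟩
  have hw0 : (w : ℚ) ≠ 0 := by exact_mod_cast hw.ne'
  have hc' : (c : ℚ) ^ 5 = u * v + v * w ^ 2 - u ^ 2 * w := by exact_mod_cast hc.symm.trans hF
  rw [hx, hy, div_pow, hc']
  field_simp

/-- `A(X) + p h(X)²` is linear modulo the quadratic `s h(X) = n(X)`. -/
lemma linear_mod (s p X : ℚ)
    (hQ : (5 * s + 2) * X ^ 2 + (5 * s - 31) * X - (29 * s + 16) = 0)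
    (hL : (1718321 + 1245816 * s - 899756 * s ^ 2 - 1770230 * s ^ 3 - 133100 * s ^ 4) * X
      + (851840 + 2130931 * s + 384659 * s ^ 2 - 2276010 * s ^ 3 - 1896675 * s ^ 4)
      + p * ((1716990 + 4092825 * s - 499125 * s ^ 2) * X
        + (873136 + 3766730 * s + 3959725 * s ^ 2)) = 0) :
    (5 * s + 2) ^ 4 * (Apol X + p * hpol X ^ 2) = 0 := by
  simp only [Apol, hpol, Ahom, hhom]
  linear_combination hL
    + ((54015 + 43031 * s - 24890 * s ^ 2 - 48700 * s ^ 3)
      + (3586 + 13321 * s + 12980 * s ^ 2 + 5225 * s ^ 3) * X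
      + (204 + 1200 * s + 2175 * s ^ 2 + 1125 * s ^ 3) * X ^ 2
      + (8 + 60 * s + 150 * s ^ 2 + 125 * s ^ 3) * X ^ 3
      + p * ((53730 + 129625 * s - 19000 * s ^ 2 - 18125 * s ^ 3)
        + (3500 + 18000 * s + 24375 * s ^ 2 + 3125 * s ^ 3) * X
        + (200 + 1500 * s + 3750 * s ^ 2 + 3125 * s ^ 3) * X ^ 2)) * hQ

lemma five_not_square (t : ℚ) : t ^ 2 ≠ 5 := by
  intro h
  have : IsSquare (5 : ℚ) := ⟨t, by rw [← h, sq]⟩
  rw [Rat.isSquare_iff] at this
  norm_num at this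

lemma hpol_ne_zero (X : ℚ) : hpol X ≠ 0 := by
  intro h
  simp only [hpol, hhom] at h
  exact five_not_square ((10 * X + 5) / 11) (by field_simp; linear_combination 20 * h)

/-- The rational preimage on the isogenous curve. -/
lemma exists_X {x y : ℚ} (h : OnE x y) (hx : x ≠ 0) :
    ∃ X : ℚ, Apol X = x * hpol X ^ 2 := by
  obtain ⟨z, hz⟩ := exists_fifth_root h
  have hz0 : z ≠ 0 := by
    intro h0
    have : (x * y + y - x ^ 2) * (x * (1 - y) + (1 - y) - x ^ 2) = (-x) ^ 5 := by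
      unfold OnE at h
      linear_combination -(x + 1) ^ 2 * h
    rw [← hz, h0] at this
    simp at this
    exact hx (neg_eq_zero.mp (eq_zero_of_pow_eq_zero this.symm))
  set s := z + -x / z with hs
  have hrel : s ^ 5 - 5 * (-x) * s ^ 3 + 5 * (-x) ^ 2 * s - 1 + (-x) + 2 * (-x) ^ 2 = 0 := by
    have hexp : s ^ 5 - 5 * (-x) * s ^ 3 + 5 * (-x) ^ 2 * s = z ^ 5 + (-x) ^ 5 / z ^ 5 := by
      rw [hs]
      field_simp
      ring
    have h5 : (-x) ^ 5 / z ^ 5 = x * (1 - y) + (1 - y) - x ^ 2 := by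
      rw [div_eq_iff (pow_ne_zero 5 hz0), hz]
      unfold OnE at h
      linear_combination (x + 1) ^ 2 * h
    rw [hexp, h5, hz]
    ring
  have hu : 5 * s + 2 ≠ 0 := by
    intro h0
    have hs' : s = -2 / 5 := by linarith
    rw [hs'] at hrel
    have hx' : x = -287 / 375 := by linarith
    unfold OnE at h
    rw [hx'] at h
    nlinarith [sq_nonneg (2 * y - 1)]
  obtain ⟨N, hN⟩ : ∃ N, N = (851840 + 2130931 * s + 384659 * s ^ 2 - 2276010 * s ^ 3
      - 1896675 * s ^ 4) + (-x) * (873136 + 3766730 * s + 3959725 * s ^ 2) := ⟨_, rfl⟩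
  obtain ⟨M, hM⟩ : ∃ M, M = (1718321 + 1245816 * s - 899756 * s ^ 2 - 1770230 * s ^ 3
      - 133100 * s ^ 4) + (-x) * (1716990 + 4092825 * s - 499125 * s ^ 2) := ⟨_, rfl⟩
  have hR : (5 * s + 2) * N ^ 2 - (5 * s - 31) * N * M - (29 * s + 16) * M ^ 2 = 0 := by
    rw [hN, hM]
    linear_combination 25937424601 * (5 * s + 2) ^ 4 * hrel
  have hM0 : M ≠ 0 := by
    intro h0
    have hN0 : N = 0 := by
      rw [h0] at hR
      have : (5 * s + 2) * N ^ 2 = 0 := by linear_combination hR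
      exact sq_eq_zero_iff.mp ((mul_eq_zero.mp this).resolve_left hu)
    have hD : 2357947691 * (5 * s + 2) ^ 4 * (s ^ 2 - s - 1) = (0 : ℚ) := by
      linear_combination (1716990 + 4092825 * s - 499125 * s ^ 2) * (hN.symm.trans hN0)
        - (873136 + 3766730 * s + 3959725 * s ^ 2) * (hM.symm.trans h0)
    rcases mul_eq_zero.mp hD with h' | h'
    · exact mul_ne_zero (by norm_num) (pow_ne_zero 4 hu) h'
    · exact five_not_square (2 * s - 1) (by linear_combination 4 * h')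
  refine ⟨-N / M, ?_⟩
  have := linear_mod s (-x) (-N / M) (by field_simp; linear_combination hR)
    (by field_simp; linear_combination N * hM - M * hN)
  have := (mul_eq_zero.mp this).resolve_left (pow_ne_zero 4 hu)
  linear_combination this

/-- A rational point has no order two. -/
lemma two_y_ne_one {x y : ℚ} (h : OnE x y) : 2 * y - 1 ≠ 0 := by
  intro h0
  obtain ⟨u, v, w, hw, hco, -, hy, he⟩ := exists_int_coords h
  have hv : 2 * v = w ^ 3 := by
    have hw0 : (w : ℚ) ≠ 0 := by exact_mod_cast hw.ne'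
    rw [hy] at h0
    field_simp at h0
    exact_mod_cast (by linarith : (2 : ℚ) * v = (w : ℚ) ^ 3)
  have h2w : (2 : ℤ) ∣ w := Int.prime_two.dvd_of_dvd_pow ⟨v, hv.symm⟩
  obtain ⟨k, hk⟩ := h2w
  subst hk
  have hv' : v = 4 * k ^ 3 := by linarith
  subst hv'
  have h2u : (2 : ℤ) ∣ u ^ 3 := ⟨2 * u ^ 2 * k ^ 2 - 8 * k ^ 6, by linear_combination -he⟩
  obtain ⟨a, b, hab⟩ := hco
  have : (2 : ℤ) ∣ 1 := hab ▸ dvd_add (dvd_mul_of_dvd_right (Int.prime_two.dvd_of_dvd_pow h2u) a)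
    ⟨b * k, by ring⟩
  norm_num at this

end Fermat.Agent.Eleven
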