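import Fermat.Agent.EC.Eleven.Kummer

/-!
Every rational point of 11a3 outside `{O, (1,0), (1,1)}` is `5R` with `R` moved by Galois only
through translations by `⟨T⟩`.
-/

set_option autoImplicit false

open WeierstrassCurve Polynomial
open scoped WeierstrassCurve.Affine

namespace Fermat.Agent.Eleven

local notation "Qbar" => AlgebraicClosure ℚ
local notation "AbsGal" => AlgebraicClosure ℚ ≃ₐ[ℚ] AlgebraicClosure ℚ

lemma invV_map {K L : Type*} [Field K] [Algebra ℚ K] [Field L] [Algebra ℚ L] (f : K →+* L) (x : K) :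
    f (invV x) = invV (f x) := by
  simp only [invV, numV, denV, map_div₀, map_add, map_mul, map_pow, map_sub, map_one, map_ofNat]

lemma Apol_map {K L : Type*} [Field K] [Algebra ℚ K] [Field L] [Algebra ℚ L] (f : K →+* L) (x : K) :
    f (Apol x) = Apol (f x) := by
  simp only [Apol, Ahom, map_add, map_mul, map_pow, map_sub, map_one, map_ofNat]

lemma hpol_map {K L : Type*} [Field K] [Algebra ℚ K] [Field L] [Algebra ℚ L] (f : K →+* L) (x : K) :
    f (hpol x) = hpol (f x) := by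
  simp only [hpol, hhom, map_add, map_mul, map_pow, map_sub, map_one, map_ofNat]

/-- The quintic whose roots are the abscissae in a fibre of `V`. -/
noncomputable def fibrePoly {K : Type*} [Field K] (X₀ : K) : K[X] :=
  X ^ 3 * (X - 1) ^ 2 + (X - 1) ^ 2 + 2 * X ^ 2 * (X - 1) + X ^ 2
    - C X₀ * (X ^ 2 * (X - 1) ^ 2)

lemma fibrePoly_eval {K : Type*} [Field K] (X₀ x : K) :
    (fibrePoly X₀).eval x = numV x - X₀ * denV x := by
  simp [fibrePoly, numV, denV]

lemma fibrePoly_natDegree {K : Type*} [Field K] (X₀ : K) : (fibrePoly X₀).natDegree = 5 := by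
  have e : fibrePoly X₀ = X ^ 5 + (C (-2 - X₀) * X ^ 4 + C (3 + 2 * X₀) * X ^ 3 + C (-X₀) * X ^ 2
      + C (-2) * X + C 1) := by
    simp only [fibrePoly, map_sub, map_add, map_mul, map_neg, map_ofNat, map_one]
    ring
  rw [e]
  compute_degree!

lemma root_fibre {K : Type*} [Field K] [Algebra ℚ K] {X₀ x : K}
    (h : (fibrePoly X₀).eval x = 0) : x ≠ 0 ∧ x ≠ 1 ∧ invV x = X₀ := by
  rw [fibrePoly_eval] at h
  have h0 : x ≠ 0 := by
    rintro rfl
    simp [numV, denV] at h
  have h1 : x ≠ 1 := by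
    rintro rfl
    simp [numV, denV] at h
  refine ⟨h0, h1, ?_⟩
  rw [invV, div_eq_iff (denV_ne_zero h0 h1)]
  exact sub_eq_zero.mp h

/-- The point of `E(ℚ̄)` attached to rational coordinates. -/
noncomputable def ptQ (x y : ℚ) (h : OnE x y) : (E11⁄Qbar).Point :=
  pt (algebraMap ℚ Qbar x) (algebraMap ℚ Qbar y) (by
    unfold OnE at *
    rw [← map_pow, ← map_sub, h, map_sub, map_pow, map_pow])

lemma smul_ptQ (σ : AbsGal) {x y : ℚ} (h : OnE x y) : σ • ptQ x y h = ptQ x y h := by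
  rw [ptQ, smul_pt, pt_inj]
  exact ⟨σ.commutes x, σ.commutes y⟩

/-- A rational point with `x ≠ 0` is five times a point moved only by translations by `⟨T⟩`. -/
theorem exists_lift {x₀ y₀ : ℚ} (h₀ : OnE x₀ y₀) (hx₀ : x₀ ≠ 0) :
    ∃ R : (E11⁄Qbar).Point, IsTwisted R ∧ (5 : ℕ) • R = ptQ x₀ y₀ h₀ := by
  obtain ⟨X₀, hX₀⟩ := exists_X h₀ hx₀
  set f := algebraMap ℚ Qbar
  obtain ⟨x, hx⟩ := IsAlgClosed.exists_root (fibrePoly (f X₀)) (by
    rw [degree_eq_natDegree (fun h0 => by
      have := fibrePoly_natDegree (f X₀); rw [h0, natDegree_zero] at this; norm_num at this),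
      fibrePoly_natDegree]
    decide)
  obtain ⟨hx0, hx1, hV⟩ := root_fibre hx
  obtain ⟨t, ht⟩ := IsAlgClosed.exists_pow_nat_eq (4 * x ^ 3 - 4 * x ^ 2 + 1)
    (show 0 < 2 by norm_num)
  have h : OnE x ((1 + t) / 2) := by
    unfold OnE
    field_simp
    linear_combination ht
  have hh : hpol (invV x) ≠ 0 := by
    rw [hV, ← hpol_map f]
    exact (map_ne_zero f).mpr (hpol_ne_zero X₀)
  obtain ⟨x', y', h', h5⟩ := exists_pt (five_nsmul_ne_zero h hx0 hx1 hh)
  have hx' : x' = f x₀ := by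
    have := five_nsmul_invV h h' hx0 hx1 h5
    rw [hV, ← hpol_map f, ← Apol_map f, hX₀, map_mul, map_pow] at this
    exact mul_right_cancel₀ (pow_ne_zero 2 ((map_ne_zero f).mpr (hpol_ne_zero X₀))) this
  set P := ptQ x₀ y₀ h₀ with hP
  have hsign : (5 : ℕ) • pt x ((1 + t) / 2) h = P ∨ (5 : ℕ) • pt x ((1 + t) / 2) h = -P := by
    rw [h5, hP, ptQ]
    exact Affine.Point.X_eq_iff.mp hx'
  suffices hR : ∀ R : (E11⁄Qbar).Point, ∀ (a b : Qbar) (hab : OnE a b), R = pt a b hab → a ≠ 0 →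
      a ≠ 1 → invV a = f X₀ → (5 : ℕ) • R = P → IsTwisted R by
    rcases hsign with hs | hs
    · exact ⟨_, hR _ _ _ h rfl hx0 hx1 hV hs, hs⟩
    · have hs' : (5 : ℕ) • -pt x ((1 + t) / 2) h = P := by rw [smul_neg, hs, neg_neg]
      exact ⟨_, hR _ _ _ (onE_neg h) (neg_pt h) hx0 hx1 hV hs', hs'⟩
  intro R a b hab hRab ha0 ha1 haV h5R σ
  have h2P : (2 : ℕ) • P ≠ 0 := by
    rw [two_nsmul, Ne, ← eq_neg_iff_add_eq_zero, hP, ptQ, neg_pt, pt_inj]
    rintro ⟨-, he⟩
    refine two_y_ne_one h₀ (f.injective ?_)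
    rw [map_sub, map_mul, map_ofNat, map_one, map_zero]
    linear_combination he
  have hT : ¬ IsTMul R := by
    rw [hRab, isTMul_iff_x]
    tauto
  have h10 : (10 : ℕ) • R ≠ 0 := by
    rw [show (10 : ℕ) = 5 * 2 from rfl, mul_nsmul, h5R]
    exact h2P
  have hinj := translate_xco_injective hT h10
  have hne : fibrePoly (f X₀) ≠ 0 := fun h0 => by
    have := fibrePoly_natDegree (f X₀); rw [h0, natDegree_zero] at this; norm_num at this
  have hroot : ∀ i : ZMod 5, xco (R + i.val • T Qbar) ∈ (fibrePoly (f X₀)).roots.toFinset := by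
    intro i
    rw [Multiset.mem_toFinset, mem_roots hne, IsRoot, fibrePoly_eval]
    have hne0 : R + i.val • T Qbar ≠ 0 := by
      intro h0
      refine hT ⟨4 * i.val, ?_⟩
      rw [eq_comm, eq_neg_of_add_eq_zero_left h0, neg_eq_iff_add_eq_zero, ← add_nsmul,
        show i.val + 4 * i.val = 5 * i.val by ring, mul_nsmul, five_T, nsmul_zero]
    obtain ⟨a', b', hab', he⟩ := exists_pt hne0
    obtain ⟨ha0', ha1', hV'⟩ := invV_translate hRab he ha0 ha1
    rw [he, xco_pt, sub_eq_zero, ← haV, ← hV', invV, div_mul_cancel₀]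
    exact denV_ne_zero ha0' ha1'
  have hfull : Finset.univ.image (fun i : ZMod 5 => xco (R + i.val • T Qbar))
      = (fibrePoly (f X₀)).roots.toFinset := by
    refine Finset.eq_of_subset_of_card_le (fun r hr => ?_) ?_
    · obtain ⟨i, -, rfl⟩ := Finset.mem_image.mp hr
      exact hroot i
    · rw [Finset.card_image_of_injective _ hinj, Finset.card_univ, ZMod.card]
      exact (Multiset.toFinset_card_le _).trans ((card_roots' _).trans (fibrePoly_natDegree _).le)
  have hσa : σ a ∈ (fibrePoly (f X₀)).roots.toFinset := by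
    rw [Multiset.mem_toFinset, mem_roots hne, IsRoot, fibrePoly_eval, sub_eq_zero]
    have h1 : numV a = f X₀ * denV a := by
      rw [← haV, invV, div_mul_cancel₀]
      exact denV_ne_zero ha0 ha1
    have := congrArg σ h1
    simp only [numV, denV, map_add, map_mul, map_pow, map_sub, map_one, map_ofNat] at this
    rw [show σ (f X₀) = f X₀ from σ.commutes X₀] at this
    exact this
  rw [← hfull, Finset.mem_image] at hσa
  obtain ⟨i, -, hi⟩ := hσa
  have hne0 : R + i.val • T Qbar ≠ 0 := by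
    intro h0
    refine hT ⟨4 * i.val, ?_⟩
    rw [eq_comm, eq_neg_of_add_eq_zero_left h0, neg_eq_iff_add_eq_zero, ← add_nsmul,
      show i.val + 4 * i.val = 5 * i.val by ring, mul_nsmul, five_T, nsmul_zero]
  obtain ⟨a', b', hab', he⟩ := exists_pt hne0
  rw [he, xco_pt] at hi
  have hσR : σ • R = pt (σ a) (σ b) (onE_map σ hab) := by rw [hRab, smul_pt]
  rcases (Affine.Point.X_eq_iff (h₁ := nonsingular_of_onE (onE_map σ hab))
    (h₂ := nonsingular_of_onE hab')).mp hi.symm with hh | hh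
  · exact ⟨i.val, hσR.trans (hh.trans he.symm)⟩
  · exfalso
    apply h2P
    have h1 : σ • R = -(R + i.val • T Qbar) := hσR.trans (hh.trans (congrArg Neg.neg he.symm))
    have h2 := congrArg (fun Q : (E11⁄Qbar).Point => (5 : ℕ) • Q) h1
    have e : (5 : ℕ) • (σ • R) = σ • ((5 : ℕ) • R) :=
      (map_nsmul (DistribSMul.toAddMonoidHom (E11⁄Qbar).Point σ) 5 R).symm
    change (5 : ℕ) • (σ • R) = (5 : ℕ) • -(R + i.val • T Qbar) at h2
    rw [e, h5R, hP, smul_ptQ, ← hP, neg_nsmul, nsmul_add, h5R,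
      ← mul_nsmul, mul_comm, mul_nsmul, five_T, nsmul_zero, add_zero,
      eq_neg_iff_add_eq_zero] at h2
    rw [two_nsmul]
    exact h2

end Fermat.Agent.Eleven
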