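import Fermat.Agent.Gal.Frobenius

/-!
Small valuation toolkit for places of `ℚ̄`.
-/

set_option autoImplicit false

open scoped Pointwise

namespace Fermat.Agent.Eleven

variable {L : Type*} [Field L] [Algebra ℚ L] {A : ValuationSubring L} {q : ℕ}

omit [Algebra ℚ L] in
lemma val_intCast_le (n : ℤ) : A.valuation (n : L) ≤ 1 :=
  (A.valuation_le_one_iff _).mpr (intCast_mem A n)

omit [Algebra ℚ L] in
lemma val_intCast_lt (hq : q.Prime) (hA : A.LiesOverPrime q) {n : ℤ} (h : (q : ℤ) ∣ n) :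
    A.valuation (n : L) < 1 :=
  A.mem_nonunits_iff.mp ((Gal.intCast_mem_nonunits_iff A hq hA n).mpr h)

omit [Algebra ℚ L] in
lemma val_intCast_eq (hq : q.Prime) (hA : A.LiesOverPrime q) {n : ℤ} (h : ¬ (q : ℤ) ∣ n) :
    A.valuation (n : L) = 1 := by
  refine (val_intCast_le n).antisymm (not_lt.mp fun hlt => h ?_)
  exact (Gal.intCast_mem_nonunits_iff A hq hA n).mp (A.mem_nonunits_iff.mpr hlt)

omit [Algebra ℚ L] in
lemma val_add_lt {x y : L} (hx : A.valuation x < 1) (hy : A.valuation y < 1) :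
    A.valuation (x + y) < 1 :=
  lt_of_le_of_lt (A.valuation.map_add x y) (max_lt hx hy)

omit [Algebra ℚ L] in
lemma val_sub_lt {x y : L} (hx : A.valuation x < 1) (hy : A.valuation y < 1) :
    A.valuation (x - y) < 1 :=
  lt_of_le_of_lt (A.valuation.map_sub x y) (max_lt hx hy)

omit [Algebra ℚ L] in
lemma val_add_le {x y : L} (hx : A.valuation x ≤ 1) (hy : A.valuation y ≤ 1) :
    A.valuation (x + y) ≤ 1 :=
  (A.valuation.map_add x y).trans (max_le hx hy)

omit [Algebra ℚ L] in
lemma val_sub_le {x y : L} (hx : A.valuation x ≤ 1) (hy : A.valuation y ≤ 1) :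
    A.valuation (x - y) ≤ 1 :=
  (A.valuation.map_sub x y).trans (max_le hx hy)

omit [Algebra ℚ L] in
lemma val_mul_lt_left {x y : L} (hx : A.valuation x < 1) (hy : A.valuation y ≤ 1) :
    A.valuation (x * y) < 1 := by
  rw [map_mul]
  exact mul_lt_one_of_lt_of_le hx hy

omit [Algebra ℚ L] in
lemma val_mul_lt_right {x y : L} (hx : A.valuation x ≤ 1) (hy : A.valuation y < 1) :
    A.valuation (x * y) < 1 := by
  rw [mul_comm]
  exact val_mul_lt_left hy hx

omit [Algebra ℚ L] in
lemma val_mul_le {x y : L} (hx : A.valuation x ≤ 1) (hy : A.valuation y ≤ 1) :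
    A.valuation (x * y) ≤ 1 := by
  rw [map_mul]
  exact mul_le_one' hx hy

omit [Algebra ℚ L] in
lemma val_pow_le {x : L} (hx : A.valuation x ≤ 1) (n : ℕ) : A.valuation (x ^ n) ≤ 1 := by
  rw [map_pow]
  exact pow_le_one' hx n

omit [Algebra ℚ L] in
/-- A factor of a product in the maximal ideal is in it. -/
lemma val_lt_or_of_mul_lt {x y : L} (h : A.valuation (x * y) < 1) :
    A.valuation x < 1 ∨ A.valuation y < 1 := by
  by_contra hc
  push Not at hc
  rw [map_mul] at h
  exact absurd h (not_lt.mpr (one_le_mul hc.1 hc.2))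

omit [Algebra ℚ L] in
lemma val_eq_one_of_sub_lt {x y : L} (h : A.valuation (x - y) < 1) (hy : A.valuation y = 1) :
    A.valuation x = 1 := by
  rw [← hy, show x = (x - y) + y by ring]
  exact A.valuation.map_add_eq_of_lt_right (hy.symm ▸ h)

omit [Algebra ℚ L] in
lemma val_le_one_of_sq_le {x : L} (h : A.valuation (x ^ 2) ≤ 1) : A.valuation x ≤ 1 := by
  by_contra hc
  push Not at hc
  rw [map_pow] at h
  exact absurd h (not_le.mpr (one_lt_pow' hc two_ne_zero))

omit [Algebra ℚ L] in
lemma val_eq_one_of_pow {x : L} {n : ℕ} (hn : n ≠ 0) (h : A.valuation x ^ n = 1) :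
    A.valuation x = 1 := by
  rcases lt_trichotomy (A.valuation x) 1 with hc | hc | hc
  · exact absurd h (pow_lt_one₀ zero_le hc hn).ne
  · exact hc
  · exact absurd h (one_lt_pow' hc hn).ne'

/-- A nonzero rational is a power of `q` times a unit at a place over `q`. -/
lemma exists_val_ratCast (hq : q.Prime) (hA : A.LiesOverPrime q) {r : ℚ} (hr : r ≠ 0) :
    ∃ v : ℤ, A.valuation (algebraMap ℚ L r) = A.valuation (q : L) ^ v := by
  have hint : ∀ n : ℤ, n ≠ 0 → ∃ e : ℕ, A.valuation (n : L) = A.valuation (q : L) ^ e := by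
    intro n hn
    obtain ⟨e, m, hm, he⟩ :=
      Nat.exists_eq_pow_mul_and_not_dvd (Int.natAbs_ne_zero.mpr hn) q hq.ne_one
    refine ⟨e, ?_⟩
    have hm' : A.valuation (m : L) = 1 := by
      have := val_intCast_eq (A := A) hq hA (n := (m : ℤ)) (by exact_mod_cast hm)
      simpa using this
    have hn' : A.valuation (n : L) = A.valuation (n.natAbs : L) := by
      rcases Int.natAbs_eq n with h | h <;> conv_lhs => rw [h]
      · simp
      · simp [Valuation.map_neg]
    rw [hn', he]
    push_cast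
    rw [map_mul, map_pow, hm', mul_one]
  obtain ⟨e₁, h₁⟩ := hint r.num (Rat.num_ne_zero.mpr hr)
  obtain ⟨e₂, h₂⟩ := hint (r.den : ℤ) (by exact_mod_cast r.den_ne_zero)
  refine ⟨(e₁ : ℤ) - e₂, ?_⟩
  have hq0 : A.valuation (q : L) ≠ 0 := by
    rw [Valuation.ne_zero_iff]
    have := (algebraMap ℚ L).injective.ne (show (q : ℚ) ≠ 0 by exact_mod_cast hq.ne_zero)
    simpa using this
  conv_lhs => rw [← Rat.num_div_den r]
  rw [map_div₀, map_div₀, map_intCast, map_natCast, h₁, zpow_sub₀ hq0, zpow_natCast, zpow_natCast]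
  have h₂' : A.valuation (r.den : L) = A.valuation (q : L) ^ e₂ := by simpa using h₂
  rw [h₂']

/-- Inertia moves elements of the ring only inside the maximal ideal. -/
lemma val_apply_sub_lt {σ : L ≃ₐ[ℚ] L} (hσ : σ ∈ A.inertiaSubgroupIn ℚ) {x : L}
    (hx : A.valuation x ≤ 1) : A.valuation (σ x - x) < 1 :=
  A.mem_nonunits_iff.mp
    (((Gal.mem_inertia_iff A σ).mp hσ).2 x ((A.valuation_le_one_iff x).mp hx))

omit [Algebra ℚ L] in
/-- Fifth roots of unity congruent modulo a place of residue characteristic not five. -/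
lemma eq_one_of_pow_five {ζ : L} (h5 : A.valuation (5 : L) = 1) (hζ : ζ ^ 5 = 1)
    (h : A.valuation (ζ - 1) < 1) : ζ = 1 := by
  have hmul : (ζ - 1) * (ζ ^ 4 + ζ ^ 3 + ζ ^ 2 + ζ + 1) = 0 := by linear_combination hζ
  rcases mul_eq_zero.mp hmul with h0 | h0
  · exact sub_eq_zero.mp h0
  · exfalso
    have hle : A.valuation ζ ≤ 1 := by
      have := val_add_le h.le (A.valuation.map_one.le)
      rwa [sub_add_cancel] at this
    have h5' : (5 : L) = (ζ - 1) * (-(ζ ^ 3 + 2 * ζ ^ 2 + 3 * ζ + 4)) := by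
      linear_combination h0
    have hb : A.valuation (-(ζ ^ 3 + 2 * ζ ^ 2 + 3 * ζ + 4)) ≤ 1 := by
      rw [Valuation.map_neg]
      refine val_add_le
        (val_add_le (val_add_le (val_pow_le hle 3) (val_mul_le ?_ (val_pow_le hle 2)))
        (val_mul_le ?_ hle)) ?_
      · simp
      · simp
      · simp
    have := val_mul_lt_left h hb
    rw [← h5', h5] at this
    exact lt_irrefl _ this

end Fermat.Agent.Eleven
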