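import Fermat.Agent.EC.Eleven.Curve
import Fermat.Agent.EC.Eleven.Val
import Fermat.Agent.Gal.Places

/-!
Translation by `T` near the node of the reduction modulo `11`.

Near the node `(8, 6)` write `d = x - 8`, `Y = 2y - 1`.  If `v(d) < 1/2` then translation by `T`
multiplies `d` by a unit which is not `1` modulo the place; if `v(d) ≥ 1/2` then `Y + 2d` has
valuation exactly `1/2` on the whole orbit, which is incompatible with the orbit being rational.
-/

set_option autoImplicit false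

open scoped Pointwise WeierstrassCurve.Affine

namespace Fermat.Agent.Eleven

local notation "Qbar" => AlgebraicClosure ℚ
local notation "AbsGal" => AlgebraicClosure ℚ ≃ₐ[ℚ] AlgebraicClosure ℚ

/-- The abscissa, with the junk value `0` at infinity. -/
def xco {K : Type*} [Field K] [Algebra ℚ K] : (E11⁄K).Point → K
  | .zero => 0
  | .some x _ _ => x

/-- The ordinate, with the junk value `0` at infinity. -/
def yco {K : Type*} [Field K] [Algebra ℚ K] : (E11⁄K).Point → K
  | .zero => 0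
  | .some _ y _ => y

lemma xco_pt {K : Type*} [Field K] [Algebra ℚ K] {x y : K} (h : OnE x y) : xco (pt x y h) = x := rfl

lemma yco_pt {K : Type*} [Field K] [Algebra ℚ K] {x y : K} (h : OnE x y) : yco (pt x y h) = y := rfl

lemma xco_smul (σ : AbsGal) (P : (E11⁄Qbar).Point) : xco (σ • P) = σ (xco P) := by
  rcases P with _ | ⟨x, y, h⟩
  · exact (map_zero σ).symm
  · rfl

lemma yco_smul (σ : AbsGal) (P : (E11⁄Qbar).Point) : yco (σ • P) = σ (yco P) := by
  rcases P with _ | ⟨x, y, h⟩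
  · exact (map_zero σ).symm
  · rfl

/-- `R` is moved by Galois only through translations by multiples of `T`. -/
def IsTwisted (R : (E11⁄Qbar).Point) : Prop :=
  ∀ σ : AbsGal, ∃ m : ℕ, σ • R = R + m • T Qbar

lemma nsmul_T_eq_of_mod {K : Type*} [Field K] [Algebra ℚ K] [DecidableEq K] {a b : ℕ}
    (h : a % 5 = b % 5) : a • T K = b • T K := by
  have hred : ∀ c : ℕ, c • T K = (c % 5) • T K := fun c => by
    conv_lhs => rw [← Nat.mod_add_div c 5, add_nsmul, mul_nsmul, five_T, nsmul_zero, add_zero]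
  rw [hred a, hred b, h]

/-- The orbit of `R` under translation, indexed by `ZMod 5`. -/
noncomputable def orbitPt (R : (E11⁄Qbar).Point) (i : ZMod 5) : (E11⁄Qbar).Point :=
  R + i.val • T Qbar

lemma orbit_product_rat {R : (E11⁄Qbar).Point} (hR : IsTwisted R) (F : Qbar → Qbar → Qbar)
    (hF : ∀ (σ : AbsGal) (x y : Qbar), σ (F x y) = F (σ x) (σ y)) :
    ∃ r : ℚ, algebraMap ℚ Qbar r =
      ∏ i : ZMod 5, F (xco (orbitPt R i)) (yco (orbitPt R i)) := by
  have := Gal.isGalois_rat_qbar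
  refine InfiniteGalois.mem_range_algebraMap_iff_fixed _ |>.mpr fun σ => ?_
  obtain ⟨m, hm⟩ := hR σ
  have hσ : ∀ i : ZMod 5, σ • orbitPt R i = orbitPt R ((m : ZMod 5) + i) := by
    intro i
    have e : σ • orbitPt R i = σ • R + σ • (i.val • T Qbar) := smul_add σ R _
    rw [e, hm, smul_nsmul_T, orbitPt, add_assoc, ← add_nsmul]
    congr 1
    refine nsmul_T_eq_of_mod ?_
    rw [ZMod.val_add, ZMod.val_natCast, Nat.mod_mod, Nat.mod_add_mod]
  rw [map_prod]
  simp only [hF, ← xco_smul, ← yco_smul, hσ]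
  exact Fintype.prod_equiv (Equiv.addLeft (m : ZMod 5)) _ _ fun i => rfl

variable {A : ValuationSubring Qbar}

/-- The case `v(d) < 1/2`: one translation step. -/
lemma node_step_lt (hA : A.LiesOverPrime 11) {d Y a : Qbar} (ha : a ^ 2 = 11) (hd : d ≠ 0)
    (hdA : A.valuation d < 1) (had : A.valuation (a / d) < 1)
    (hE : Y ^ 2 = 1793 + 704 * d + 92 * d ^ 2 + 4 * d ^ 3) :
    8 + d ≠ 0 ∧
    A.valuation (((Y + 1) / (2 * (8 + d) ^ 2) - 8) / d) = 1 ∧
      A.valuation (((Y + 1) / (2 * (8 + d) ^ 2) - 8) / d - 1) = 1 := by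
  have h11 : Nat.Prime 11 := by norm_num
  have hu : A.valuation (11 / d ^ 2) < 1 := by
    rw [← ha, ← div_pow, map_pow]
    exact pow_lt_one₀ zero_le had two_ne_zero
  have hd1 := hdA.le
  have hi : ∀ n : ℤ, A.valuation (n : Qbar) ≤ 1 := val_intCast_le
  -- the slope `Y/d` is `±2` modulo the place
  have hsq : A.valuation ((Y / d - 2) * (Y / d + 2)) < 1 := by
    have e : (Y / d - 2) * (Y / d + 2) =
        (11 / d ^ 2) * ((163 : ℤ) + (64 : ℤ) * d) + (88 : ℤ) + (4 : ℤ) * d := by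
      field_simp
      push_cast
      linear_combination hE
    rw [e]
    refine val_add_lt (val_add_lt (val_mul_lt_left hu (val_add_le (hi _) (val_mul_le (hi _) hd1)))
      (val_intCast_lt h11 hA (by norm_num))) (val_mul_lt_right (hi _) hdA)
  have key : ∀ e : ℤ, ¬ (11 : ℤ) ∣ e - 3 → ¬ (11 : ℤ) ∣ e - 3 - 128 →
      A.valuation (Y / d - (e : Qbar)) < 1 →
      8 + d ≠ 0 ∧ A.valuation (((Y + 1) / (2 * (8 + d) ^ 2) - 8) / d) = 1 ∧
      A.valuation (((Y + 1) / (2 * (8 + d) ^ 2) - 8) / d - 1) = 1 := by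
    intro e he1 he2 he
    have hx1 : A.valuation (8 + d) = 1 :=
      val_eq_one_of_sub_lt (y := ((8 : ℤ) : Qbar)) (by simpa using hdA)
        (val_intCast_eq h11 hA (by norm_num))
    have hx0 : (8 : Qbar) + d ≠ 0 := fun h0 => by simp [h0] at hx1
    set q := ((Y + 1) / (2 * (8 + d) ^ 2) - 8) / d with hq
    have h2x : A.valuation (2 * (8 + d) ^ 2 - ((128 : ℤ) : Qbar)) < 1 := by
      rw [show 2 * (8 + d) ^ 2 - ((128 : ℤ) : Qbar) =
        d * (((32 : ℤ) : Qbar) + ((2 : ℤ) : Qbar) * d) by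
        push_cast; ring]
      exact val_mul_lt_left hdA (val_add_le (hi _) (val_mul_le (hi _) hd1))
    have h2x1 : A.valuation (2 * (8 + d) ^ 2) = 1 :=
      val_eq_one_of_sub_lt h2x (val_intCast_eq h11 hA (by norm_num))
    have heq : q * (2 * (8 + d) ^ 2) - ((e - 3 : ℤ) : Qbar) =
        (Y / d - (e : Qbar)) + (11 / d ^ 2) * d * ((-93 : ℤ) : Qbar) + ((-253 : ℤ) : Qbar)
          + ((-16 : ℤ) : Qbar) * d := by
      rw [hq]
      push_cast
      field_simp
      ring
    have hlt : A.valuation (q * (2 * (8 + d) ^ 2) - ((e - 3 : ℤ) : Qbar)) < 1 := by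
      rw [heq]
      exact val_add_lt (val_add_lt (val_add_lt he (val_mul_lt_left (val_mul_lt_left hu hd1) (hi _)))
        (val_intCast_lt h11 hA (by norm_num))) (val_mul_lt_right (hi _) hdA)
    refine ⟨hx0, ?_, ?_⟩
    · have := val_eq_one_of_sub_lt hlt (val_intCast_eq h11 hA he1)
      rwa [map_mul, h2x1, mul_one] at this
    · have h' : A.valuation ((q - 1) * (2 * (8 + d) ^ 2) - ((e - 3 - 128 : ℤ) : Qbar)) < 1 := by
        rw [show (q - 1) * (2 * (8 + d) ^ 2) - ((e - 3 - 128 : ℤ) : Qbar) =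
          (q * (2 * (8 + d) ^ 2) - ((e - 3 : ℤ) : Qbar))
            - (2 * (8 + d) ^ 2 - ((128 : ℤ) : Qbar)) by push_cast; ring]
        exact val_sub_lt hlt h2x
      have := val_eq_one_of_sub_lt h' (val_intCast_eq h11 hA he2)
      rwa [map_mul, h2x1, mul_one] at this
  rcases val_lt_or_of_mul_lt hsq with h | h
  · exact key 2 (by norm_num) (by norm_num) (by simpa using h)
  · exact key (-2) (by norm_num) (by norm_num) (by simpa using h)

/-- The case `v(d) ≥ 1/2`: one translation step. -/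
lemma node_step_ge (hA : A.LiesOverPrime 11) {d Y a : Qbar} (ha : a ^ 2 = 11)
    (hdA : A.valuation (d / a) ≤ 1) (hE : Y ^ 2 = 1793 + 704 * d + 92 * d ^ 2 + 4 * d ^ 3) :
    8 + d ≠ 0 ∧ A.valuation ((Y + 2 * d) / a) = 1 ∧
      A.valuation (((Y + 1) / (2 * (8 + d) ^ 2) - 8) / a) ≤ 1 := by
  have h11 : Nat.Prime 11 := by norm_num
  have hi : ∀ n : ℤ, A.valuation (n : Qbar) ≤ 1 := val_intCast_le
  have ha0 : a ≠ 0 := fun h => by simp [h] at ha
  have ha1 : A.valuation a < 1 := by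
    have h : A.valuation ((11 : ℤ) : Qbar) < 1 := val_intCast_lt h11 hA (dvd_refl _)
    push_cast at h
    rw [← ha, map_pow] at h
    exact not_le.mp fun hle => absurd h (not_lt.mpr (one_le_pow₀ hle))
  obtain ⟨u, hu⟩ : ∃ u, d = a * u := ⟨d / a, (mul_div_cancel₀ d ha0).symm⟩
  have hu1 : A.valuation u ≤ 1 := by rwa [hu, mul_div_cancel_left₀ _ ha0] at hdA
  have hdlt : A.valuation d < 1 := by rw [hu]; exact val_mul_lt_left ha1 hu1
  have hx1 : A.valuation (8 + d) = 1 :=
    val_eq_one_of_sub_lt (y := ((8 : ℤ) : Qbar)) (by simpa using hdlt)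
      (val_intCast_eq h11 hA (by norm_num))
  have hx0 : (8 : Qbar) + d ≠ 0 := fun h0 => by simp [h0] at hx1
  have hY : (Y / a) ^ 2 = (163 : ℤ) + (64 : ℤ) * d + (92 : ℤ) * u ^ 2 + (4 : ℤ) * d * u ^ 2 := by
    rw [div_pow, div_eq_iff (pow_ne_zero 2 ha0)]
    push_cast
    linear_combination hE + (92 * d + 4 * d ^ 2 + 92 * a * u + 4 * d * a * u) * hu
      - (163 + 64 * d) * ha
  have hY1 : A.valuation (Y / a) ≤ 1 := by
    refine val_le_one_of_sq_le ?_
    rw [hY]
    exact val_add_le (val_add_le (val_add_le (hi _) (val_mul_le (hi _) hdlt.le))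
      (val_mul_le (hi _) (val_pow_le hu1 2)))
      (val_mul_le (val_mul_le (hi _) hdlt.le) (val_pow_le hu1 2))
  refine ⟨hx0, ?_, ?_⟩
  · have hw : ∀ e : ℤ, A.valuation (Y / a + (e : Qbar) * u) ≤ 1 := fun e =>
      val_add_le hY1 (val_mul_le (hi _) hu1)
    have hprod : A.valuation
        ((Y / a + ((2 : ℤ) : Qbar) * u) * (Y / a + ((-2 : ℤ) : Qbar) * u) - ((163 : ℤ) : Qbar))
          < 1 := by
      rw [show (Y / a + ((2 : ℤ) : Qbar) * u) * (Y / a + ((-2 : ℤ) : Qbar) * u) - ((163 : ℤ) : Qbar)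
        = (Y / a) ^ 2 - (163 : ℤ) - 4 * u ^ 2 by push_cast; ring, hY,
        show ((163 : ℤ) : Qbar) + (64 : ℤ) * d + (92 : ℤ) * u ^ 2 + (4 : ℤ) * d * u ^ 2
          - (163 : ℤ) - 4 * u ^ 2
        = (64 : ℤ) * d + (88 : ℤ) * u ^ 2 + (4 : ℤ) * d * u ^ 2 by push_cast; ring]
      refine val_add_lt (val_add_lt (val_mul_lt_right (hi _) hdlt) ?_)
        (val_mul_lt_left (val_mul_lt_right (hi _) hdlt) (val_pow_le hu1 2))
      exact val_mul_lt_left (val_intCast_lt h11 hA (by norm_num)) (val_pow_le hu1 2)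
    have hunit := val_eq_one_of_sub_lt hprod (val_intCast_eq h11 hA (by norm_num))
    rw [show (Y + 2 * d) / a = Y / a + ((2 : ℤ) : Qbar) * u by
      rw [hu]; field_simp; push_cast; ring]
    refine (hw 2).antisymm (not_lt.mp fun hlt => ?_)
    have := val_mul_lt_left hlt (hw (-2))
    rw [hunit] at this
    exact lt_irrefl _ this
  · have h2x1 : A.valuation (2 * (8 + d) ^ 2) = 1 := by
      rw [map_mul, map_pow, hx1, one_pow, mul_one]
      simpa using val_intCast_eq (A := A) (L := Qbar) h11 hA (n := 2) (by norm_num)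
    have e : ((Y + 1) / (2 * (8 + d) ^ 2) - 8) / a * (2 * (8 + d) ^ 2) =
        Y / a + a * ((-93 : ℤ) : Qbar) + ((-256 : ℤ) : Qbar) * u
          + ((-16 : ℤ) : Qbar) * d * u := by
      push_cast
      field_simp
      linear_combination -(256 + 16 * d) * hu + 93 * ha
    have := congrArg A.valuation e
    rw [map_mul, h2x1, mul_one] at this
    rw [this]
    exact val_add_le (val_add_le (val_add_le hY1 (val_mul_le ha1.le (hi _)))
      (val_mul_le (hi _) hu1)) (val_mul_le (val_mul_le (hi _) hdlt.le) hu1)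

end Fermat.Agent.Eleven
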