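import Fermat.Agent.EC.Eleven.Classes
import Fermat.Agent.EC.Eleven.FiveAdic

/-!
The rational points of 11a3 are the five multiples of `T`; twisted points are the twenty-five
points with `5R ∈ ⟨T⟩`.
-/

set_option autoImplicit false

open scoped WeierstrassCurve.Affine

namespace Fermat.Agent.Eleven

local notation "Qbar" => AlgebraicClosure ℚ
local notation "AbsGal" => AlgebraicClosure ℚ ≃ₐ[ℚ] AlgebraicClosure ℚ

/-- A point fixed by all Galois elements. -/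
def IsRatPt (P : (E11⁄Qbar).Point) : Prop := ∀ σ : AbsGal, σ • P = P

lemma exists_ptQ {P : (E11⁄Qbar).Point} (hP : IsRatPt P) (h0 : P ≠ 0) :
    ∃ x y h, P = ptQ x y h := by
  have := Gal.isGalois_rat_qbar
  obtain ⟨a, b, h, rfl⟩ := exists_pt h0
  have key : ∀ σ : AbsGal, σ a = a ∧ σ b = b := fun σ => by
    have := hP σ
    rwa [smul_pt, pt_inj] at this
  obtain ⟨x, rfl⟩ := (InfiniteGalois.mem_range_algebraMap_iff_fixed a).mpr fun σ => (key σ).1
  obtain ⟨y, rfl⟩ := (InfiniteGalois.mem_range_algebraMap_iff_fixed b).mpr fun σ => (key σ).2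
  refine ⟨x, y, ?_, rfl⟩
  unfold OnE at *
  apply (algebraMap ℚ Qbar).injective
  simpa using h

lemma isRatPt_nsmul {P : (E11⁄Qbar).Point} (hP : IsRatPt P) (n : ℕ) : IsRatPt (n • P) :=
  fun σ => by rw [gal_smul_nsmul, hP σ]

/-- Five times a rational point is not a nonzero multiple of `T`. -/
lemma five_nsmul_not_T {P : (E11⁄Qbar).Point} (hP : IsRatPt P) (hT : IsTMul ((5 : ℕ) • P)) :
    (5 : ℕ) • P = 0 := by
  by_contra h0
  have hP0 : P ≠ 0 := fun h => h0 (by rw [h, nsmul_zero])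
  obtain ⟨x, y, h, hPq⟩ := exists_ptQ hP hP0
  obtain ⟨x', y', h', h5⟩ := exists_ptQ (isRatPt_nsmul hP 5) h0
  have hd := five_step h h' (by rw [← hPq]; exact h5) (k := 0) (by norm_num)
  rw [h5, ptQ, isTMul_iff_x] at hT
  rcases hT with hT | hT
  · rw [map_eq_zero] at hT
    rw [hT] at hd
    norm_num at hd
  · have hT' : x' = 1 := (algebraMap ℚ Qbar).injective (by rw [hT, map_one])
    rw [hT'] at hd
    norm_num at hd

/-- A twisted point whose quintuple generates `⟨T⟩`. -/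
lemma exists_base : ∃ R₀ : (E11⁄Qbar).Point, IsTwisted R₀ ∧ (5 : ℕ) • R₀ = (3 : ℕ) • T Qbar ∧
    ∃ σ : AbsGal, σ • R₀ ≠ R₀ := by
  have h : OnE (1 : ℚ) 0 := onE_one_zero
  obtain ⟨R₀, hR₀, h5⟩ := exists_lift h one_ne_zero
  have h3 : (5 : ℕ) • R₀ = (3 : ℕ) • T Qbar := by
    rw [h5, three_T, ptQ, pt_inj]
    exact ⟨map_one _, map_zero _⟩
  refine ⟨R₀, hR₀, h3, ?_⟩
  by_contra hc
  push Not at hc
  have h0 := five_nsmul_not_T hc ⟨3, h3.symm⟩
  rw [h3, three_T] at h0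
  exact pt_ne_zero _ h0

lemma five_nsmul_nsmul {R₀ : (E11⁄Qbar).Point} {n : ℕ} (h : (5 : ℕ) • R₀ = (3 : ℕ) • T Qbar) :
    (5 : ℕ) • (n • R₀) = (3 * n) • T Qbar := by
  rw [← mul_nsmul', mul_comm, mul_nsmul', h, ← mul_nsmul', mul_comm]

/-- Modulo `⟨T⟩`, every rational point is divisible by five. -/
lemma exists_div_five {P : (E11⁄Qbar).Point} (hP : IsRatPt P) :
    ∃ P' : (E11⁄Qbar).Point, ∃ j : ℕ, IsRatPt P' ∧ P = j • T Qbar + (5 : ℕ) • P' := by
  rcases eq_or_ne P 0 with rfl | h0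
  · exact ⟨0, 0, fun σ => smul_zero (A := (E11⁄Qbar).Point) σ, by simp⟩
  obtain ⟨x, y, h, rfl⟩ := exists_ptQ hP h0
  rcases eq_or_ne x 0 with rfl | hx
  · obtain ⟨i, hi⟩ : IsTMul (ptQ 0 y h) := by
      rw [ptQ, isTMul_iff_x]
      exact Or.inl (map_zero _)
    exact ⟨0, i, fun σ => smul_zero (A := (E11⁄Qbar).Point) σ, by simp [hi]⟩
  obtain ⟨R, hR, h5⟩ := exists_lift h hx
  obtain ⟨R₀, hR₀, h50, hne⟩ := exists_base
  obtain ⟨n, hn⟩ := exists_rational_combination hR₀ hne hR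
  refine ⟨R + n • R₀, 2 * n, hn, ?_⟩
  rw [nsmul_add, five_nsmul_nsmul h50, h5, add_left_comm, ← add_nsmul,
    show 2 * n + 3 * n = 5 * n by ring, mul_nsmul, five_T, nsmul_zero, add_zero]

/-- The rational points of 11a3. -/
theorem isTMul_of_isRatPt {P : (E11⁄Qbar).Point} (hP : IsRatPt P) : IsTMul P := by
  obtain ⟨P₁, j, hP₁, rfl⟩ := exists_div_five hP
  suffices h0 : (5 : ℕ) • P₁ = 0 by exact ⟨j, by rw [h0, add_zero]⟩
  have hdiv : ∀ k : ℕ, ∃ Q, IsRatPt Q ∧ (5 : ℕ) • P₁ = (5 ^ (k + 1) : ℕ) • Q := by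
    intro k
    induction k with
    | zero => exact ⟨P₁, hP₁, by norm_num⟩
    | succ k ih =>
      obtain ⟨Q, hQ, he⟩ := ih
      obtain ⟨Q', i, hQ', rfl⟩ := exists_div_five hQ
      refine ⟨Q', hQ', ?_⟩
      rw [he, nsmul_add, ← mul_nsmul', ← mul_nsmul', ← pow_succ,
        show 5 ^ (k + 1) * i = 5 * (5 ^ k * i) by ring, mul_nsmul, five_T, nsmul_zero, zero_add]
  by_contra h0
  obtain ⟨x, y, h, hxy⟩ := exists_ptQ (isRatPt_nsmul hP₁ 5) h0
  have hden : ∀ k : ℕ, (5 : ℤ) ^ (2 * k) ∣ (x.den : ℤ) := by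
    intro k
    obtain ⟨Q, hQ, he⟩ := hdiv k
    suffices H : ∀ i ≤ k + 1, ∀ (a b : ℚ) (hab : OnE a b), (5 ^ i : ℕ) • Q = ptQ a b hab →
        (5 : ℤ) ^ (2 * i) ∣ (a.den : ℤ) by
      exact dvd_trans (pow_dvd_pow _ (by omega)) (H (k + 1) le_rfl x y h (he.symm.trans hxy))
    intro i
    induction i with
    | zero => intro _ a b hab _; norm_num
    | succ i ih =>
      intro hi a b hab hQa
      have hne : (5 ^ i : ℕ) • Q ≠ 0 := by
        intro h0'
        rw [pow_succ, mul_nsmul, h0', nsmul_zero] at hQa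
        exact pt_ne_zero _ hQa.symm
      obtain ⟨a', b', hab', hQ'⟩ := exists_ptQ (isRatPt_nsmul hQ _) hne
      refine five_step hab' hab ?_ (ih (by omega) a' b' hab' hQ')
      rw [← hQ', ← mul_nsmul, ← pow_succ]
      exact hQa
  obtain ⟨k, hk⟩ : ∃ k : ℕ, x.den < 5 ^ (2 * k) :=
    ⟨x.den, lt_of_lt_of_le (Nat.lt_pow_self (by norm_num))
      (Nat.pow_le_pow_right (by norm_num) (by omega))⟩
  have := Int.le_of_dvd (by exact_mod_cast x.den_pos) (hden k)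
  exact absurd this (not_le.mpr (by exact_mod_cast hk))

/-- A twisted point satisfies `5R ∈ ⟨T⟩`. -/
theorem five_nsmul_twisted {R : (E11⁄Qbar).Point} (hR : IsTwisted R) :
    IsTMul R ∨ (IsTMul ((5 : ℕ) • R) ∧ (5 : ℕ) • R ≠ 0) := by
  obtain ⟨R₀, hR₀, h50, hne⟩ := exists_base
  obtain ⟨n, hn⟩ := exists_rational_combination hR₀ hne hR
  obtain ⟨j, hj⟩ := isTMul_of_isRatPt (P := R + n • R₀) hn
  have h5 : (5 : ℕ) • R = (2 * n) • T Qbar := by
    have h := congrArg (fun Q : (E11⁄Qbar).Point => (5 : ℕ) • Q + (2 * n) • T Qbar) hj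
    change (5 : ℕ) • (j • T Qbar) + _ = (5 : ℕ) • (R + n • R₀) + _ at h
    rw [nsmul_add, five_nsmul_nsmul h50, ← mul_nsmul', mul_nsmul (T Qbar) 5 j, five_T, nsmul_zero,
      zero_add, add_assoc, ← add_nsmul, show 3 * n + 2 * n = 5 * n by ring,
      mul_nsmul (T Qbar) 5 n, five_T, nsmul_zero, add_zero] at h
    exact h.symm
  by_cases hn5 : 5 ∣ n
  · left
    obtain ⟨c, rfl⟩ := hn5
    refine ⟨j + 2 * c, ?_⟩
    rw [add_nsmul, hj, mul_nsmul, h50, ← mul_nsmul, add_assoc, ← add_nsmul,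
      show 3 * c + 2 * c = 5 * c by ring, mul_nsmul, five_T, nsmul_zero, add_zero]
  · right
    refine ⟨⟨_, h5.symm⟩, fun h0 => hn5 ?_⟩
    rw [h5] at h0
    by_contra hn'
    have hm : (2 * n) % 5 ≠ 0 := by omega
    have : (2 * n) • T Qbar = ((2 * n) % 5) • T Qbar := nsmul_T_eq_of_mod (Nat.mod_mod _ _).symm
    rw [this] at h0
    have hlt : (2 * n) % 5 < 5 := Nat.mod_lt _ (by norm_num)
    interval_cases hc : (2 * n) % 5
    · exact hm rfl
    · rw [one_nsmul] at h0; exact T_ne_zero h0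
    · rw [two_T] at h0; exact pt_ne_zero _ h0
    · rw [three_T] at h0; exact pt_ne_zero _ h0
    · rw [four_T] at h0; exact pt_ne_zero _ h0

end Fermat.Agent.Eleven
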