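import Fermat.Agent.EC.Eleven.Integral
import Fermat.Agent.EC.Torsion.Main

/-!
A Galois stable line of order eleven gives a twisted point of 11a3 whose Tate normal form is
isomorphic to the curve.
-/

set_option autoImplicit false

open WeierstrassCurve
open scoped WeierstrassCurve.Affine

namespace Fermat.Agent.Eleven

local notation "Qbar" => AlgebraicClosure ℚ
local notation "AbsGal" => AlgebraicClosure ℚ ≃ₐ[ℚ] AlgebraicClosure ℚ

variable (W : WeierstrassCurve ℚ)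

/-- The point of 11a3 attached to a point of `W` (junk value `0`). -/
noncomputable def paramPt (Q : (W⁄Qbar).Point) : (E11⁄Qbar).Point :=
  open Classical in
  match Q with
  | .zero => 0
  | .some x y _ =>
    if h : OnE (paramX (W⁄Qbar) x y) (paramY (W⁄Qbar) x y) then pt _ _ h else 0

lemma paramPt_some {x₀ y₀ x y : Qbar} {h₀ : (W⁄Qbar).Nonsingular x₀ y₀} (h : OnE x y)
    (hX : paramX (W⁄Qbar) x₀ y₀ = x) (hY : paramY (W⁄Qbar) x₀ y₀ = y) :
    paramPt W (.some x₀ y₀ h₀) = pt x y h := by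
  subst hX hY
  simp only [paramPt, dif_pos h]

lemma map_baseChange_eq (σ : AbsGal) :
    (W.baseChange Qbar).map (σ.toAlgHom : Qbar →+* Qbar) = W.baseChange Qbar := by
  rw [WeierstrassCurve.baseChange, WeierstrassCurve.map_map]
  congr 1
  exact σ.toAlgHom.comp_algebraMap

lemma paramPt_smul (σ : AbsGal) {x₀ y₀ x y : Qbar} {h₀ : (W⁄Qbar).Nonsingular x₀ y₀}
    {h : OnE x y} (hX : paramX (W⁄Qbar) x₀ y₀ = x) (hY : paramY (W⁄Qbar) x₀ y₀ = y) :
    paramPt W (σ • (.some x₀ y₀ h₀ : (W⁄Qbar).Point)) = σ • pt x y h := by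
  rw [smul_pt, Affine.Point.algEquiv_smul_def, Affine.Point.map_some]
  obtain ⟨e1, e2⟩ := param_map (σ.toAlgHom : Qbar →+* Qbar) (W.baseChange Qbar) x₀ y₀
  rw [map_baseChange_eq] at e1 e2
  exact paramPt_some W (onE_map σ h) (e1.symm.trans (congrArg σ hX))
    (e2.symm.trans (congrArg σ hY))

lemma paramPt_double {Q : (W⁄Qbar).Point} (hQ : addOrderOf Q = 11) :
    paramPt W ((2 : ℕ) • Q) = paramPt W Q + (2 : ℕ) • T Qbar := by
  rcases Q with _ | ⟨x₀, y₀, h₀⟩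
  · rw [← Affine.Point.zero_def, addOrderOf_zero] at hQ
    norm_num at hQ
  obtain ⟨x, y, h, C, hX, hY, hx0, hx1, -, hdbl⟩ := param_spec _ h₀ hQ
  rw [paramPt_some W h hX hY]
  generalize h2 : (2 : ℕ) • (Affine.Point.some x₀ y₀ h₀ : (W⁄Qbar).Point) = Q2
  rcases Q2 with _ | ⟨x₂, y₂, h₂⟩
  · exfalso
    have := addOrderOf_dvd_of_nsmul_eq_zero h2
    rw [hQ] at this
    norm_num at this
  obtain ⟨x', y', h', he⟩ := exists_pt (P := pt x y h + (2 : ℕ) • T Qbar) (by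
    intro h0
    obtain ⟨h'', he'⟩ := pt_add_two_T h hx1
    exact pt_ne_zero h'' (he'.symm.trans h0))
  obtain ⟨hX', hY'⟩ := hdbl x₂ y₂ h₂ h2 x' y' h' he
  rw [paramPt_some W h' hX' hY', he]

lemma addOrderOf_nsmul_eleven {Q : (W⁄Qbar).Point} (hQ : addOrderOf Q = 11) {n : ℕ}
    (hn : ¬ 11 ∣ n) : addOrderOf (n • Q) = 11 := by
  have : Fact (Nat.Prime 11) := ⟨by norm_num⟩
  refine addOrderOf_eq_prime ?_ ?_
  · rw [← mul_nsmul', mul_comm, mul_nsmul', show (11 : ℕ) • Q = 0 from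
      hQ ▸ addOrderOf_nsmul_eq_zero Q, nsmul_zero]
  · intro h0
    exact hn (hQ ▸ addOrderOf_dvd_of_nsmul_eq_zero h0)

lemma two_generates : ∀ z : ZMod 11, z ≠ 0 → ∃ i : Fin 10, (2 : ZMod 11) ^ (i : ℕ) = z := by
  decide

/-- A Galois stable line of order eleven gives a twisted point. -/
theorem exists_twisted_of_stable_line [W.IsElliptic]
    (N : Submodule (ZMod 11) (Submodule.torsionBy ℤ (W⁄Qbar).Point ((11 : ℕ) : ℤ)))
    (hstab : Affine.Point.IsGaloisStable ℚ N) (hbot : N ≠ ⊥) (htop : N ≠ ⊤) :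
    ∃ (x y : Qbar) (h : OnE x y) (C : VariableChange Qbar),
      IsTwisted (pt x y h) ∧ x ≠ 0 ∧ x ≠ 1 ∧
      C • (W.baseChange Qbar) = tate (x * (x - 1) * (x + y - 1)) ((y - 1) * (x + y - 1) / x) := by
  have : Fact (Nat.Prime 11) := ⟨by norm_num⟩
  have : (W⁄Qbar).IsElliptic := inferInstanceAs (W.map (algebraMap ℚ Qbar)).IsElliptic
  have h11 : ((11 : ℕ) : Qbar) ≠ 0 := by norm_num
  have := EC.Torsion.moduleFinite_torsionBy W.toAffine Qbar h11
  have h2 : Module.finrank (ZMod 11) (Submodule.torsionBy ℤ (W⁄Qbar).Point ((11 : ℕ) : ℤ)) = 2 :=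
    EC.Torsion.finrank_torsionBy W.toAffine Qbar h11
  have hN1 : Module.finrank (ZMod 11) N = 1 := by
    have h1 := Submodule.finrank_lt htop
    have h0 : Module.finrank (ZMod 11) N ≠ 0 := fun h => hbot (Submodule.finrank_eq_zero.mp h)
    omega
  obtain ⟨⟨v, hvN⟩, hv0, hv⟩ := finrank_eq_one_iff'.mp hN1
  set Q : (W⁄Qbar).Point := (v : (W⁄Qbar).Point) with hQdef
  have hQ11 : (11 : ℕ) • Q = 0 := by
    have := v.2
    rw [Submodule.mem_torsionBy_iff] at this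
    rw [← natCast_zsmul]
    exact this
  have hQ0 : Q ≠ 0 := fun h0 => hv0 (Subtype.ext (Subtype.ext h0))
  have hord : addOrderOf Q = 11 := addOrderOf_eq_prime hQ11 hQ0
  have hact : ∀ σ : AbsGal, ∃ a : ℕ, σ • Q = a • Q := fun σ => by
    obtain ⟨a, ha⟩ := hv ⟨σ • v, hstab σ v hvN⟩
    refine ⟨a.val, ?_⟩
    have ha' : a • v = σ • v := congrArg Subtype.val ha
    rw [← ZMod.natCast_zmod_val a, Nat.cast_smul_eq_nsmul] at ha'
    exact (congrArg Subtype.val ha').symm.trans (Submodule.coe_smul_of_tower a.val v)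
  obtain ⟨x₀, y₀, h₀, hQe⟩ : ∃ x₀ y₀ h₀, Q = .some x₀ y₀ h₀ := by
    rcases Q with _ | ⟨x₀, y₀, h₀⟩
    · exact absurd rfl hQ0
    · exact ⟨x₀, y₀, h₀, rfl⟩
  obtain ⟨x, y, h, C, hX, hY, hx0, hx1, hC, -⟩ := param_spec _ h₀ (hQe ▸ hord)
  refine ⟨x, y, h, C, ?_, hx0, hx1, hC⟩
  have hpow : ∀ i : ℕ, paramPt W ((2 ^ i) • Q) = pt x y h + (2 * i) • T Qbar := by
    intro i
    induction i with
    | zero => simp [hQe, paramPt_some W h hX hY]
    | succ i ih =>
      have hndvd : ¬ 11 ∣ 2 ^ i := fun hd => by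
        have := (show Nat.Prime 11 by norm_num).dvd_of_dvd_pow hd
        norm_num at this
      rw [show 2 ^ (i + 1) = 2 ^ i * 2 from pow_succ 2 i, mul_nsmul,
        paramPt_double W (addOrderOf_nsmul_eleven W hord hndvd), ih, add_assoc, ← add_nsmul]
      congr 2
  intro σ
  obtain ⟨a, ha⟩ := hact σ
  have hσQ : addOrderOf (σ • Q) = 11 := by
    refine addOrderOf_eq_prime ?_ ?_
    · have := map_nsmul (DistribSMul.toAddMonoidHom (W⁄Qbar).Point σ) 11 Q
      simp only [DistribSMul.toAddMonoidHom_apply] at this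
      rw [← this, hQ11]
      exact smul_zero (A := (W⁄Qbar).Point) σ
    · intro h0
      exact hQ0 (MulAction.injective σ (h0.trans (smul_zero (A := (W⁄Qbar).Point) σ).symm))
  have hna : (a : ZMod 11) ≠ 0 := by
    intro h0
    rw [ZMod.natCast_eq_zero_iff] at h0
    obtain ⟨k, rfl⟩ := h0
    rw [ha, mul_nsmul, hQ11, nsmul_zero, addOrderOf_zero] at hσQ
    norm_num at hσQ
  obtain ⟨i, hi⟩ : ∃ i : Fin 10, (2 : ZMod 11) ^ (i : ℕ) = (a : ZMod 11) := by
    exact two_generates _ hna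
  refine ⟨2 * i, ?_⟩
  have hmod : a • Q = (2 ^ (i : ℕ)) • Q := by
    have e : (a : ZMod 11) = ((2 ^ (i : ℕ) : ℕ) : ZMod 11) := by rw [← hi]; push_cast; rfl
    rw [ZMod.natCast_eq_natCast_iff'] at e
    rw [← mod_addOrderOf_nsmul Q a, hord, e, ← hord, mod_addOrderOf_nsmul]
  rw [← hpow, ← hmod, ← ha, hQe, paramPt_smul W σ hX hY]

end Fermat.Agent.Eleven
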