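import Fermat.Agent.EC.Eleven.Node

/-!
A point of order eleven, up to sign, gives a point on 11a3 (Tate normal form), and doubling the
point translates the image by `2T`.
-/

set_option autoImplicit false

open WeierstrassCurve

namespace Fermat.Agent.Eleven

variable {F : Type*} [Field F]

section Invariant

variable (W : WeierstrassCurve F) (x₀ y₀ : F)

/-- `a₂` after moving `(x₀, y₀)` to the origin. -/
def tA₂ : F := W.a₂ + 3 * x₀
/-- `a₃` after moving `(x₀, y₀)` to the origin. -/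
def tA₃ : F := W.a₃ + W.a₁ * x₀ + 2 * y₀
/-- `a₄` after moving `(x₀, y₀)` to the origin. -/
def tA₄ : F := W.a₄ + 2 * W.a₂ * x₀ + 3 * x₀ ^ 2 - W.a₁ * y₀
/-- The slope of the tangent at `(x₀, y₀)`. -/
def tS : F := tA₄ W x₀ y₀ / tA₃ W x₀ y₀
/-- `a₁` after making the tangent horizontal. -/
def tB₁ : F := W.a₁ + 2 * tS W x₀ y₀
/-- `a₂` after making the tangent horizontal. -/
def tB₂ : F := tA₂ W x₀ - tS W x₀ y₀ * W.a₁ - tS W x₀ y₀ ^ 2
/-- The parameter `b` of the Tate normal form. -/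
def tateB : F := -tB₂ W x₀ y₀ ^ 3 / tA₃ W x₀ y₀ ^ 2
/-- The parameter `c` of the Tate normal form. -/
def tateC : F := 1 - tB₁ W x₀ y₀ * tB₂ W x₀ y₀ / tA₃ W x₀ y₀

variable (C : VariableChange F)

lemma tA₃_variableChange (x y : F) :
    tA₃ W ((C.u : F) ^ 2 * x + C.r) ((C.u : F) ^ 3 * y + (C.u : F) ^ 2 * C.s * x + C.t)
      = (C.u : F) ^ 3 * tA₃ (C • W) x y := by
  have hu := C.u.ne_zero
  simp only [tA₃, variableChange_a₁, variableChange_a₃, Units.val_inv_eq_inv_val]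
  field_simp
  ring

lemma tA₂_variableChange (x : F) :
    tA₂ W ((C.u : F) ^ 2 * x + C.r)
      = (C.u : F) ^ 2 * tA₂ (C • W) x + C.s * W.a₁ + C.s ^ 2 := by
  have hu := C.u.ne_zero
  simp only [tA₂, variableChange_a₂, Units.val_inv_eq_inv_val]
  field_simp
  ring

lemma tA₄_variableChange (x y : F) :
    tA₄ W ((C.u : F) ^ 2 * x + C.r) ((C.u : F) ^ 3 * y + (C.u : F) ^ 2 * C.s * x + C.t)
      = (C.u : F) ^ 4 * tA₄ (C • W) x y
        + C.s * (C.u : F) ^ 3 * tA₃ (C • W) x y := by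
  have hu := C.u.ne_zero
  simp only [tA₃, tA₄, variableChange_a₁, variableChange_a₂, variableChange_a₃, variableChange_a₄,
    Units.val_inv_eq_inv_val]
  field_simp
  ring

/-- The Tate parameters do not depend on the equation. -/
lemma tate_variableChange (x y : F) (h : tA₃ (C • W) x y ≠ 0) :
    tateB W ((C.u : F) ^ 2 * x + C.r) ((C.u : F) ^ 3 * y + (C.u : F) ^ 2 * C.s * x + C.t)
        = tateB (C • W) x y ∧
      tateC W ((C.u : F) ^ 2 * x + C.r) ((C.u : F) ^ 3 * y + (C.u : F) ^ 2 * C.s * x + C.t)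
        = tateC (C • W) x y := by
  have hu := C.u.ne_zero
  have ha1 : W.a₁ = (C.u : F) * (C • W).a₁ - 2 * C.s := by
    rw [variableChange_a₁, Units.val_inv_eq_inv_val]
    field_simp
    ring
  simp only [tateB, tateC, tB₁, tB₂, tS, tA₂_variableChange, tA₃_variableChange,
    tA₄_variableChange, ha1]
  constructor <;> field_simp <;> ring

/-- The change of variables to the Tate normal form. -/
noncomputable def toTate (h₂ : tB₂ W x₀ y₀ ≠ 0) (h₃ : tA₃ W x₀ y₀ ≠ 0) : VariableChange F :=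
  ⟨Units.mk0 (tA₃ W x₀ y₀ / tB₂ W x₀ y₀) (div_ne_zero h₃ h₂), x₀, tS W x₀ y₀, y₀⟩

/-- The Tate normal form. -/
def tate (b c : F) : WeierstrassCurve F := ⟨1 - c, -b, -b, 0, 0⟩

lemma toTate_smul (he : W.toAffine.Equation x₀ y₀) (h₂ : tB₂ W x₀ y₀ ≠ 0)
    (h₃ : tA₃ W x₀ y₀ ≠ 0) :
    toTate W x₀ y₀ h₂ h₃ • W = tate (tateB W x₀ y₀) (tateC W x₀ y₀) := by
  rw [Affine.equation_iff] at he
  have hs : tA₄ W x₀ y₀ = tS W x₀ y₀ * tA₃ W x₀ y₀ := by
    rw [tS, div_mul_cancel₀ _ h₃]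
  ext <;> simp only [toTate, tate, tateB, tateC, variableChange_a₁, variableChange_a₂,
    variableChange_a₃, variableChange_a₄, variableChange_a₆, Units.val_inv_eq_inv_val,
    Units.val_mk0]
  · field_simp
    simp only [tB₁]
    ring
  · field_simp
    simp only [tB₂, tA₂]
    ring
  · field_simp
    simp only [tA₃]
    ring
  · have e : W.a₄ - tS W x₀ y₀ * W.a₃ + 2 * x₀ * W.a₂
        - (y₀ + x₀ * tS W x₀ y₀) * W.a₁ + 3 * x₀ ^ 2 - 2 * tS W x₀ y₀ * y₀ = 0 := by
      simp only [tA₄, tA₃] at hs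
      linear_combination hs
    rw [e, mul_zero]
  · have e : W.a₆ + x₀ * W.a₄ + x₀ ^ 2 * W.a₂ + x₀ ^ 3 - y₀ * W.a₃ - y₀ ^ 2
        - x₀ * y₀ * W.a₁ = 0 := by linear_combination -he
    rw [e, mul_zero]

end Invariant

/-! ### Points of order eleven on a curve in Tate normal form -/

section Tate

variable [DecidableEq F] {b c : F}

omit [DecidableEq F] in
lemma tate_nonsingular_zero (hb : b ≠ 0) : (tate b c).toAffine.Nonsingular 0 0 := by
  rw [Affine.nonsingular_iff', Affine.equation_iff]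
  refine ⟨by simp [tate], Or.inr ?_⟩
  simpa [tate] using hb

/-- The marked point. -/
def P₀ (hb : b ≠ 0) : (tate b c).toAffine.Point := .some 0 0 (tate_nonsingular_zero hb)

lemma tate_add_of_X_ne {x₁ y₁ x₂ y₂ : F} (h₁ : (tate b c).toAffine.Nonsingular x₁ y₁)
    (h₂ : (tate b c).toAffine.Nonsingular x₂ y₂) (hx : x₁ ≠ x₂) (l : F)
    (hl : l * (x₁ - x₂) = y₁ - y₂) :
    ∃ h, Affine.Point.some x₁ y₁ h₁ + Affine.Point.some x₂ y₂ h₂ =
      .some (l ^ 2 + (1 - c) * l + b - x₁ - x₂)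
        (-(l * (l ^ 2 + (1 - c) * l + b - x₁ - x₂ - x₁) + y₁)
          - (1 - c) * (l ^ 2 + (1 - c) * l + b - x₁ - x₂) + b) h := by
  have hs : (tate b c).toAffine.slope x₁ x₂ y₁ y₂ = l := by
    rw [Affine.slope_of_X_ne hx, ← hl, mul_div_cancel_right₀ _ (sub_ne_zero.mpr hx)]
  have e := Affine.Point.add_of_X_ne (h₁ := h₁) (h₂ := h₂) hx
  simp only [hs] at e
  simp only [Affine.addX, Affine.addY, Affine.negAddY, Affine.negY, tate, sub_neg_eq_add] at e
  exact ⟨_, e⟩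

lemma tate_add_self {x y : F} (h₁ : (tate b c).toAffine.Nonsingular x y)
    (hy : 2 * y + (1 - c) * x - b ≠ 0) (l : F)
    (hl : l * (2 * y + (1 - c) * x - b) = 3 * x ^ 2 - 2 * b * x - (1 - c) * y) :
    ∃ h, Affine.Point.some x y h₁ + Affine.Point.some x y h₁ =
      .some (l ^ 2 + (1 - c) * l + b - x - x)
        (-(l * (l ^ 2 + (1 - c) * l + b - x - x - x) + y)
          - (1 - c) * (l ^ 2 + (1 - c) * l + b - x - x) + b) h := by
  have hy' : y ≠ (tate b c).toAffine.negY x y := by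
    simp only [Affine.negY, tate]
    intro h
    exact hy (by linear_combination h)
  have hs : (tate b c).toAffine.slope x x y y = l := by
    rw [Affine.slope_of_Y_ne rfl hy', div_eq_iff (sub_ne_zero.mpr hy')]
    simp only [Affine.negY, tate]
    linear_combination -hl
  have e := Affine.Point.add_self_of_Y_ne (h₁ := h₁) hy'
  simp only [hs] at e
  simp only [Affine.addX, Affine.addY, Affine.negAddY, Affine.negY, tate, sub_neg_eq_add] at e
  exact ⟨_, e⟩

/-- The data extracted from a marked point of order eleven. -/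
lemma tate_eleven (hb : b ≠ 0) (h11 : addOrderOf (P₀ (c := c) hb) = 11) :
    ∃ (r s : F) (h2 : (tate b c).toAffine.Nonsingular b (b * c)),
      b = r * c ∧ c = s * (r - 1) ∧ r ≠ 0 ∧ r - 1 ≠ 0 ∧ s ≠ 0 ∧ s - 1 ≠ 0 ∧
      r * (s - 1) ^ 3 = (r - 1) * (r - s) ∧ (2 : ℕ) • P₀ (c := c) hb = .some b (b * c) h2 := by
  set P := P₀ (c := c) hb with hP
  have hord : ∀ n : ℕ, n • P = 0 → 11 ∣ n := fun n hn =>
    h11 ▸ addOrderOf_dvd_of_nsmul_eq_zero hn
  have hX : ∀ (m n : ℕ) (x y x' y' : F) (h : (tate b c).toAffine.Nonsingular x y)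
      (h' : (tate b c).toAffine.Nonsingular x' y'), m • P = .some x y h → n • P = .some x' y' h' →
      x = x' → 11 ∣ m + n ∨ ∃ k, 11 ∣ k ∧ (m = n + k ∨ n = m + k) := by
    intro m n x y x' y' h h' hm hn hx
    rcases (Affine.Point.X_eq_iff (h₁ := h) (h₂ := h')).mp hx with he | he
    · right
      rw [← hm, ← hn] at he
      rcases le_total n m with hle | hle
      · obtain ⟨k, rfl⟩ := Nat.exists_eq_add_of_le hle
        rw [add_nsmul, add_eq_left] at he
        exact ⟨k, hord k he, Or.inl rfl⟩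
      · obtain ⟨k, rfl⟩ := Nat.exists_eq_add_of_le hle
        rw [add_nsmul, left_eq_add] at he
        exact ⟨k, hord k he, Or.inr rfl⟩
    · left
      rw [← hm, ← hn, eq_neg_iff_add_eq_zero, ← add_nsmul] at he
      exact hord _ he
  -- `2P`
  obtain ⟨g2, e2⟩ := tate_add_self (tate_nonsingular_zero (c := c) hb)
    (by simpa using hb) 0 (by ring)
  have h2n : (tate b c).toAffine.Nonsingular b (b * c) := by
    convert g2 using 1 <;> ring
  have e2' : (2 : ℕ) • P = .some b (b * c) h2n := by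
    rw [two_nsmul, hP, P₀, e2, Affine.Point.some.injEq]
    constructor <;> ring
  -- `3P`
  obtain ⟨g3, e3⟩ := tate_add_of_X_ne h2n (tate_nonsingular_zero (c := c) hb) hb c (by ring)
  have h3n : (tate b c).toAffine.Nonsingular c (b - c) := by
    convert g3 using 1 <;> ring
  have e3' : (3 : ℕ) • P = .some c (b - c) h3n := by
    rw [succ_nsmul, e2', hP, P₀, e3, Affine.Point.some.injEq]
    constructor <;> ring
  have e1 : (1 : ℕ) • P = .some 0 0 (tate_nonsingular_zero hb) := by rw [one_nsmul]; rfl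
  have hc : c ≠ 0 := fun h0 => by
    rcases hX 3 1 _ _ _ _ h3n _ e3' e1 h0 with h | ⟨k, hk, hk' | hk'⟩ <;> omega
  obtain ⟨r, hr⟩ : ∃ r, b = r * c := ⟨b / c, (div_mul_cancel₀ b hc).symm⟩
  have hr0 : r ≠ 0 := fun h0 => hb (by rw [hr, h0, zero_mul])
  -- `4P`
  obtain ⟨g4, e4⟩ := tate_add_of_X_ne h3n (tate_nonsingular_zero (c := c) hb) hc (r - 1)
    (by linear_combination (-1 : F) * hr)
  have h4n : (tate b c).toAffine.Nonsingular (r * (r - 1)) (r ^ 2 * (c - r + 1)) := by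
    convert g4 using 1
    · linear_combination -hr
    · linear_combination (r - c) * hr
  have e4' : (4 : ℕ) • P = .some (r * (r - 1)) (r ^ 2 * (c - r + 1)) h4n := by
    rw [succ_nsmul, e3', hP, P₀, e4, Affine.Point.some.injEq]
    refine ⟨?_, ?_⟩
    · linear_combination hr
    · linear_combination (c - r) * hr
  have hx4 : r * (r - 1) ≠ 0 := fun h0 => by
    rcases hX 4 1 _ _ _ _ h4n _ e4' e1 h0 with h | ⟨k, hk, hk' | hk'⟩ <;> omega
  have hr1 : r - 1 ≠ 0 := right_ne_zero_of_mul hx4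
  obtain ⟨s, hs⟩ : ∃ s, c = s * (r - 1) := ⟨c / (r - 1), (div_mul_cancel₀ c hr1).symm⟩
  have hs0 : s ≠ 0 := fun h0 => hc (by rw [hs, h0, zero_mul])
  -- `5P`
  obtain ⟨g5, e5⟩ := tate_add_of_X_ne h4n (tate_nonsingular_zero (c := c) hb) hx4 (r * (s - 1))
    (by rw [hs]; ring)
  have e5' := (show (5 : ℕ) • P = _ by rw [succ_nsmul, e4', hP, P₀, e5])
  have hx5 : r * s * (s - 1) ≠ 0 := fun h0 => by
    rcases hX 5 1 _ _ _ _ g5 _ e5' e1 (by rw [hr, hs]; linear_combination h0) with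
      h | ⟨k, hk, hk' | hk'⟩ <;> omega
  have hs1 : s - 1 ≠ 0 := right_ne_zero_of_mul hx5
  -- `6P`
  have hden : 2 * (b - c) + (1 - c) * c - b ≠ 0 := by
    rw [show 2 * (b - c) + (1 - c) * c - b = -(c * (r - 1) * (s - 1)) by rw [hr, hs]; ring]
    exact neg_ne_zero.mpr (mul_ne_zero (mul_ne_zero hc hr1) hs1)
  obtain ⟨l, hl⟩ : ∃ l, l * (2 * (b - c) + (1 - c) * c - b) =
      3 * c ^ 2 - 2 * b * c - (1 - c) * (b - c) := ⟨_, div_mul_cancel₀ _ hden⟩
  obtain ⟨g6, e6⟩ := tate_add_self h3n hden l hl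
  have e6' := (show (6 : ℕ) • P = _ by
    rw [show (6 : ℕ) = 3 + 3 from rfl, add_nsmul, e3', e6])
  have hneg : (6 : ℕ) • P = -((5 : ℕ) • P) := by
    rw [eq_neg_iff_add_eq_zero, ← add_nsmul]
    have h0 := addOrderOf_nsmul_eq_zero P
    rw [h11] at h0
    exact h0
  rw [e5', e6', Affine.Point.neg_some, Affine.Point.some.injEq] at hneg
  have hsl : l * (-(s - 1)) = 3 * s - 2 * r * s - 1 + s * (r - 1) := by
    apply mul_left_cancel₀ (mul_ne_zero hc hr1)
    rw [hr] at hl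
    rw [hs] at hl ⊢
    linear_combination hl
  refine ⟨r, s, h2n, hr, hs, hr0, hr1, hs0, hs1, ?_, e2'⟩
  have h56 := hneg.1
  rw [hr, hs] at h56
  refine mul_left_cancel₀ hs0 ?_
  linear_combination -(s - 1) ^ 2 * h56
    + (-l * (s - 1) + (3 * s - 2 * r * s - 1 + s * (r - 1))
      + (s - 1) * (-(1 - s * (r - 1)))) * hsl

end Tate

end Fermat.Agent.Eleven
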